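import Mathlib

/-!
# Basic facts on `𝓞 K`, `K` the `p`-th cyclotomic field (helper26, for T-Kum case II)

`ζ` a primitive `p`-th root of unity in `K`, `Z = hζ.toInteger`, `λ = Z - 1`.
-/

open NumberField Polynomial

set_option linter.unusedSectionVars false
set_option linter.style.haveILetI false

namespace Fermat.Agent.H4Kum

variable {p : ℕ} [hp : Fact p.Prime] {K : Type*} [Field K] [NumberField K]
  [IsCyclotomicExtension {p} ℚ K] {ζ : K} (hζ : IsPrimitiveRoot ζ p)

/-- `ζ^i - ζ^j` is associated to `λ = ζ - 1` when `i ≢ j mod p`. -/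
theorem h26_associated_pow_sub_pow {i j : ℕ} (hij : ¬ i ≡ j [MOD p]) :
    Associated (hζ.toInteger - 1) (hζ.toInteger ^ i - hζ.toInteger ^ j) := by
  have hZ : IsPrimitiveRoot hζ.toInteger p := hζ.toInteger_isPrimitiveRoot
  have key : ∀ {i j : ℕ}, j ≤ i → ¬ i ≡ j [MOD p] →
      Associated (hζ.toInteger - 1) (hζ.toInteger ^ i - hζ.toInteger ^ j) := by
    intro i j hji hij
    obtain ⟨d, rfl⟩ := Nat.exists_eq_add_of_le hji
    have hd : ¬ p ∣ d := by
      intro hpd
      apply hij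
      have : j + d ≡ j + 0 [MOD p] := Nat.ModEq.add_left j ((Nat.modEq_zero_iff_dvd).mpr hpd)
      simpa using this
    have hcop : d.Coprime p := ((Nat.Prime.coprime_iff_not_dvd hp.out).mpr hd).symm
    exact hZ.associated_pow_add_sub_sub_one hp.out.two_le j hcop
  rcases le_total j i with h | h
  · exact key h hij
  · have h2 := (key h (fun h' => hij h'.symm)).neg_right
    rwa [neg_sub] at h2

/-- `ζ^k - 1` is associated to `λ = ζ - 1` when `p ∤ k`. -/
theorem h26_zeta_pow_sub_one_associated {k : ℕ} (hk : ¬ p ∣ k) :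
    Associated (hζ.toInteger ^ k - 1) (hζ.toInteger - 1) := by
  have h := h26_associated_pow_sub_pow hζ (i := k) (j := 0)
    (fun h => hk ((Nat.modEq_zero_iff_dvd).mp h))
  rw [pow_zero] at h
  exact h.symm

/-- `1 + ζ` is a unit for `p` odd. -/
theorem h26_isUnit_one_add_zeta (hp2 : p ≠ 2) : IsUnit (1 + hζ.toInteger) := by
  have hZ : IsPrimitiveRoot hζ.toInteger p := hζ.toInteger_isPrimitiveRoot
  have h2 : (2 : ℕ).Coprime p := by
    rw [Nat.coprime_comm, Nat.Prime.coprime_iff_not_dvd hp.out]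
    intro h
    exact hp2 ((Nat.prime_dvd_prime_iff_eq hp.out Nat.prime_two).mp h)
  have := hZ.geom_sum_isUnit hp.out.two_le h2
  simpa [Finset.sum_range_succ] using this

/-- The factorisation `a^p + b^p = ∏_{i<p} (a + ζ^i b)` (`p` odd). -/
theorem h26_pow_add_pow_eq_prod (hp2 : p ≠ 2) (a b : 𝓞 K) :
    a ^ p + b ^ p = ∏ i ∈ Finset.range p, (a + hζ.toInteger ^ i * b) := by
  have hZ : IsPrimitiveRoot hζ.toInteger p := hζ.toInteger_isPrimitiveRoot
  have hodd : Odd p := hp.out.odd_of_ne_two hp2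
  rw [hZ.pow_add_pow_eq_prod_add_mul a b hodd]
  classical
  have himg : nthRootsFinset p (1 : 𝓞 K) = (Finset.range p).image (fun i => hζ.toInteger ^ i) := by
    apply Finset.eq_of_subset_of_card_le
    · intro η hη
      rw [mem_nthRootsFinset hp.out.pos] at hη
      obtain ⟨i, hi, rfl⟩ := hZ.eq_pow_of_pow_eq_one hη
      exact Finset.mem_image.mpr ⟨i, Finset.mem_range.mpr hi, rfl⟩
    · rw [hZ.card_nthRootsFinset]
      exact Finset.card_image_le.trans (by simp)
  rw [himg, Finset.prod_image]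
  intro i hi j hj hij
  exact hZ.pow_inj (Finset.mem_range.mp hi) (Finset.mem_range.mp hj) hij

/-- The residue ring `𝓞 K / (λ)` has `p` elements. -/
theorem h26_card_quotient (hp2 : p ≠ 2) :
    Nat.card (𝓞 K ⧸ Ideal.span {hζ.toInteger - 1}) = p := by
  haveI : NeZero p := ⟨hp.out.ne_zero⟩
  rw [hζ.card_quotient_toInteger_sub_one, hζ.norm_toInteger_sub_one_of_prime_ne_two' hp2]
  simp

/-- `λ` divides a rational integer iff `p` does. -/
theorem h26_lam_dvd_intCast_iff (hp2 : p ≠ 2) (n : ℤ) :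
    (hζ.toInteger - 1) ∣ (n : 𝓞 K) ↔ (p : ℤ) ∣ n := by
  rw [← Ideal.norm_dvd_iff (hζ.prime_norm_toInteger_sub_one_of_prime_ne_two' hp2),
    hζ.norm_toInteger_sub_one_of_prime_ne_two' hp2]

/-- Every element of `𝓞 K` is congruent to a rational integer modulo `λ`. -/
theorem h26_exists_int_sub_dvd_lam (hp2 : p ≠ 2) (x : 𝓞 K) :
    ∃ n : ℤ, (hζ.toInteger - 1) ∣ x - (n : 𝓞 K) := by
  have hcard := h26_card_quotient hζ hp2
  have hfin : Finite (𝓞 K ⧸ Ideal.span {hζ.toInteger - 1}) :=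
    Nat.finite_of_card_ne_zero (by rw [hcard]; exact hp.out.ne_zero)
  let g : Fin p → 𝓞 K ⧸ Ideal.span {hζ.toInteger - 1} :=
    fun i => Ideal.Quotient.mk _ (((i : ℕ) : ℤ) : 𝓞 K)
  have hinj : Function.Injective g := by
    intro i j hij
    simp only [g] at hij
    rw [Ideal.Quotient.eq, Ideal.mem_span_singleton, ← Int.cast_sub,
      h26_lam_dvd_intCast_iff hζ hp2] at hij
    have hi := i.2
    have hj := j.2
    have h0 : ((i : ℕ) : ℤ) - ((j : ℕ) : ℤ) = 0 := by
      apply Int.eq_zero_of_abs_lt_dvd hij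
      rw [abs_lt]
      constructor <;> omega
    exact Fin.ext (by omega)
  have hbij : Function.Bijective g :=
    hinj.bijective_of_nat_card_le (by rw [hcard, Nat.card_fin])
  obtain ⟨i, hi⟩ := hbij.2 (Ideal.Quotient.mk _ x)
  refine ⟨((i : ℕ) : ℤ), ?_⟩
  rw [← Ideal.mem_span_singleton, ← Ideal.Quotient.eq]
  exact hi.symm

/-- `p` divides `λ ^ p`. -/
theorem h26_p_dvd_lam_pow : (p : 𝓞 K) ∣ (hζ.toInteger - 1) ^ p := by
  have h := (IsCyclotomicExtension.Rat.associated_zeta_sub_one_pow_prime p hζ).symm.dvd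
  refine h.trans (pow_dvd_pow _ (Nat.sub_le p 1))

/-- The `p`-th power of any element of `𝓞 K` is congruent to a rational integer modulo `p`. -/
theorem h26_exists_int_pow_sub_dvd_p (hp2 : p ≠ 2) (x : 𝓞 K) :
    ∃ n : ℤ, (p : 𝓞 K) ∣ x ^ p - (n : 𝓞 K) := by
  have hζ := IsCyclotomicExtension.zeta_spec p ℚ K
  obtain ⟨n, y, hy⟩ := h26_exists_int_sub_dvd_lam hζ hp2 x
  obtain ⟨r, hr⟩ := exists_add_pow_prime_eq hp.out ((n : 𝓞 K)) ((hζ.toInteger - 1) * y)
  obtain ⟨w, hw⟩ := h26_p_dvd_lam_pow hζ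
  refine ⟨n ^ p, w * y ^ p + (n : 𝓞 K) * ((hζ.toInteger - 1) * y) * r, ?_⟩
  have hx : x = (n : 𝓞 K) + (hζ.toInteger - 1) * y := by rw [← hy]; ring
  rw [hx, hr, mul_pow, hw]
  push_cast
  ring

end Fermat.Agent.H4Kum
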