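import Fermat.Agent.Kum.Defs
import Fermat.Agent.Kum.CycloBasic

/-!
# Case II of FLT for a prime `p`: Kummer's descent (helper4, T-Kum slice KB2)

Input: the factor structure theorem (helper26, `CaseIIFactors.lean`), taken here as the hypothesis
`FactorStructure hζ`, and Kummer's lemma.  Output: `CaseII p`.
-/

open NumberField Polynomial

namespace Fermat.Agent.H4Kum

variable {p : ℕ} [hp : Fact p.Prime] {K : Type*} [Field K] [NumberField K]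
  [IsCyclotomicExtension {p} ℚ K] {ζ : K} (hζ : IsPrimitiveRoot ζ p)

/-- The statement of the factor structure theorem (proved by helper26 as `h26_factor_structure`). -/
def FactorStructure : Prop :=
  ∀ (a b c : 𝓞 K) (u : (𝓞 K)ˣ),
    ¬ (hζ.toInteger - 1) ∣ a → ¬ (hζ.toInteger - 1) ∣ b → c ≠ 0 →
    IsCoprime a b → (hζ.toInteger - 1) ∣ c → a ^ p + b ^ p = u * c ^ p →
    ∃ (k m : ℕ) (c₀ : 𝓞 K) (ε₀ ε₁ ε₂ : (𝓞 K)ˣ) (ρ₀ ρ₁ ρ₂ : 𝓞 K),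
      2 ≤ m ∧ c = (hζ.toInteger - 1) ^ m * c₀ ∧ ¬ (hζ.toInteger - 1) ∣ c₀ ∧
      a + hζ.toInteger ^ k * b = ε₀ * (hζ.toInteger - 1) ^ (p * (m - 1) + 1) * ρ₀ ^ p ∧
      a + hζ.toInteger ^ (k + 1) * b = ε₁ * (hζ.toInteger - 1) * ρ₁ ^ p ∧
      a + hζ.toInteger ^ (k + (p - 1)) * b = ε₂ * (hζ.toInteger - 1) * ρ₂ ^ p ∧
      ¬ (hζ.toInteger - 1) ∣ ρ₀ ∧ ¬ (hζ.toInteger - 1) ∣ ρ₁ ∧ ¬ (hζ.toInteger - 1) ∣ ρ₂ ∧
      IsCoprime ρ₁ ρ₂

/-- Uniqueness of the `λ`-adic valuation. -/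
theorem h4kum_pow_mul_eq_pow_mul {R : Type*} [CommRing R] [IsDomain R] {l : R} (hl : Prime l)
    {m n : ℕ} {c d : R} (hc : ¬ l ∣ c) (hd : ¬ l ∣ d) (h : l ^ m * c = l ^ n * d) : m = n := by
  wlog hmn : m ≤ n generalizing m n c d
  · exact (this hd hc h.symm (le_of_not_ge hmn)).symm
  obtain ⟨k, rfl⟩ := Nat.exists_eq_add_of_le hmn
  rcases Nat.eq_zero_or_pos k with rfl | hk
  · rfl
  · exfalso
    rw [pow_add, mul_assoc] at h
    have h2 := mul_left_cancel₀ (pow_ne_zero m hl.ne_zero) h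
    apply hc
    rw [h2]
    exact Dvd.dvd.mul_right (dvd_pow_self l hk.ne') d

/-- The unit `η` of the descent step is congruent to a rational integer modulo `p`. -/
theorem h4kum_unit_congr_int (hp2 : p ≠ 2) {η ρ₁ ρ₂ t : 𝓞 K}
    (hρ₂ : ¬ (hζ.toInteger - 1) ∣ ρ₂) (h : ρ₁ ^ p + η * ρ₂ ^ p = (p : 𝓞 K) * t) :
    ∃ n : ℤ, (p : 𝓞 K) ∣ η - (n : 𝓞 K) := by
  obtain ⟨n₁, w₁, hw₁⟩ := h26_exists_int_pow_sub_dvd_p (K := K) hp2 ρ₁
  obtain ⟨n₂, w₂, hw₂⟩ := h26_exists_int_pow_sub_dvd_p (K := K) hp2 ρ₂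
  have hlam : Prime (hζ.toInteger - 1) := hζ.zeta_sub_one_prime'
  -- `p ∤ n₂`
  have hn₂ : ¬ (p : ℤ) ∣ n₂ := by
    intro hdvd
    have h1 : (hζ.toInteger - 1) ∣ (n₂ : 𝓞 K) := (h26_lam_dvd_intCast_iff hζ hp2 n₂).mpr hdvd
    have h2 : (hζ.toInteger - 1) ∣ (p : 𝓞 K) * w₂ :=
      Dvd.dvd.mul_right hζ.toInteger_sub_one_dvd_prime' w₂
    have h3 : (hζ.toInteger - 1) ∣ ρ₂ ^ p := by
      have : ρ₂ ^ p = (p : 𝓞 K) * w₂ + (n₂ : 𝓞 K) := by rw [← hw₂]; ring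
      rw [this]
      exact dvd_add h2 h1
    exact hρ₂ (hlam.dvd_of_dvd_pow h3)
  have hcop : IsCoprime n₂ (p : ℤ) := by
    have hpp : Prime (p : ℤ) := Nat.prime_iff_prime_int.mp hp.out
    exact (hpp.coprime_iff_not_dvd.mpr hn₂).symm
  obtain ⟨s, r, hsr⟩ := hcop
  refine ⟨-(s * n₁), η * r + s * t - s * w₁ - η * s * w₂, ?_⟩
  have e1 : ρ₁ ^ p = (p : 𝓞 K) * w₁ + (n₁ : 𝓞 K) := by rw [← hw₁]; ring
  have e2 : ρ₂ ^ p = (p : 𝓞 K) * w₂ + (n₂ : 𝓞 K) := by rw [← hw₂]; ring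
  have e3 : (s : 𝓞 K) * (n₂ : 𝓞 K) + (r : 𝓞 K) * (p : 𝓞 K) = 1 := by
    have := congrArg (Int.cast : ℤ → 𝓞 K) hsr
    push_cast at this
    exact this
  rw [e1, e2] at h
  push_cast
  linear_combination (-η) * e3 + (s : 𝓞 K) * h

/-- Kummer's descent: there is no solution of the generalised equation. -/
theorem h4kum_no_solution (hp2 : p ≠ 2) (hfac : FactorStructure hζ) (hK : KummerLemma p K) :
    ∀ (n : ℕ) (a b c : 𝓞 K) (u : (𝓞 K)ˣ) (c₀ : 𝓞 K),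
      ¬ (hζ.toInteger - 1) ∣ a → ¬ (hζ.toInteger - 1) ∣ b → IsCoprime a b →
      c = (hζ.toInteger - 1) ^ n * c₀ → ¬ (hζ.toInteger - 1) ∣ c₀ → 1 ≤ n →
      a ^ p + b ^ p = u * c ^ p → False := by
  intro n
  induction n using Nat.strong_induction_on with
  | _ n ih =>
    intro a b c u c₀ ha hb hab hc hc₀ hn H
    have hlam : Prime (hζ.toInteger - 1) := hζ.zeta_sub_one_prime'
    have hlam0 : hζ.toInteger - 1 ≠ 0 := hlam.ne_zero
    have hc0 : c ≠ 0 := by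
      rw [hc]
      exact mul_ne_zero (pow_ne_zero _ hlam0) (fun h => hc₀ (h ▸ dvd_zero _))
    have hcdvd : (hζ.toInteger - 1) ∣ c := by
      rw [hc]
      exact Dvd.dvd.mul_right (dvd_pow_self _ (by omega)) _
    obtain ⟨k, m, c₀', ε₀, ε₁, ε₂, ρ₀, ρ₁, ρ₂, hm2, hc', hc₀', h0, h1, h2, hρ₀, hρ₁, hρ₂, hcop⟩ :=
      hfac a b c u ha hb hc0 hab hcdvd H
    have hmn : m = n := h4kum_pow_mul_eq_pow_mul hlam hc₀' hc₀ (hc'.symm.trans hc)
    subst hmn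
    have hZ : IsPrimitiveRoot hζ.toInteger p := hζ.toInteger_isPrimitiveRoot
    have hZp : hζ.toInteger ^ p = 1 := hZ.pow_eq_one
    have hp1 : 1 ≤ p := hp.out.one_le
    -- the linear relation between the three factors
    have hrel : (a + hζ.toInteger ^ (k + 1) * b) + hζ.toInteger * (a + hζ.toInteger ^ (k + (p - 1)) * b)
        = (1 + hζ.toInteger) * (a + hζ.toInteger ^ k * b) := by
      have e : hζ.toInteger * hζ.toInteger ^ (k + (p - 1)) = hζ.toInteger ^ k := by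
        rw [← pow_succ', show k + (p - 1) + 1 = k + p by omega, pow_add, hZp, mul_one]
      have e' : hζ.toInteger ^ (k + 1) = hζ.toInteger ^ k * hζ.toInteger := pow_succ _ _
      linear_combination b * e + b * e'
    rw [h0, h1, h2] at hrel
    -- cancel `λ`
    have hpow : (hζ.toInteger - 1) ^ (p * (m - 1) + 1)
        = (hζ.toInteger - 1) * ((hζ.toInteger - 1) ^ (m - 1)) ^ p := by
      rw [pow_succ', ← pow_mul, mul_comm (m - 1) p]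
    have hrel2 : (ε₁ : 𝓞 K) * ρ₁ ^ p + hζ.toInteger * ((ε₂ : 𝓞 K) * ρ₂ ^ p)
        = (1 + hζ.toInteger) * ((ε₀ : 𝓞 K) * ((hζ.toInteger - 1) ^ (m - 1) * ρ₀) ^ p) := by
      apply mul_left_cancel₀ hlam0
      rw [hpow] at hrel
      linear_combination hrel
    -- the units
    set Zu : (𝓞 K)ˣ := (hZ.isUnit hp.out.ne_zero).unit with hZu
    set Yu : (𝓞 K)ˣ := (h26_isUnit_one_add_zeta hζ hp2).unit with hYu
    have hZuv : (Zu : 𝓞 K) = hζ.toInteger := IsUnit.unit_spec _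
    have hYuv : (Yu : 𝓞 K) = 1 + hζ.toInteger := IsUnit.unit_spec _
    set η : (𝓞 K)ˣ := Zu * ε₂ * ε₁⁻¹ with hη
    set u' : (𝓞 K)ˣ := Yu * ε₀ * ε₁⁻¹ with hu'
    have hinv : ((ε₁⁻¹ : (𝓞 K)ˣ) : 𝓞 K) * (ε₁ : 𝓞 K) = 1 := Units.inv_mul ε₁
    have hE : ρ₁ ^ p + (η : 𝓞 K) * ρ₂ ^ p
        = (u' : 𝓞 K) * ((hζ.toInteger - 1) ^ (m - 1) * ρ₀) ^ p := by
      rw [hη, hu']
      simp only [Units.val_mul, hZuv, hYuv]
      linear_combination ((ε₁⁻¹ : (𝓞 K)ˣ) : 𝓞 K) * hrel2 +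
        (-(ρ₁ ^ p)) * hinv
    -- `η` is congruent to an integer modulo `p`
    obtain ⟨w, hw⟩ := h26_p_dvd_lam_pow hζ
    have hm1 : m - 1 = (m - 2) + 1 := by omega
    have hE2 : ρ₁ ^ p + (η : 𝓞 K) * ρ₂ ^ p
        = (p : 𝓞 K) * ((u' : 𝓞 K) * w * ((hζ.toInteger - 1) ^ (m - 2) * ρ₀) ^ p) := by
      rw [hE, hm1, pow_succ, mul_pow, mul_pow, mul_pow, hw]
      ring
    obtain ⟨θ, hθ⟩ := hK η (h4kum_unit_congr_int hζ hp2 hρ₂ hE2)
    -- the new solution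
    refine ih (m - 1) (by omega) ρ₁ ((θ : 𝓞 K) * ρ₂) ((hζ.toInteger - 1) ^ (m - 1) * ρ₀) u' ρ₀
      hρ₁ ?_ ?_ rfl hρ₀ (by omega) ?_
    · rwa [θ.isUnit.dvd_mul_left]
    · exact (isCoprime_mul_unit_left_right θ.isUnit ρ₁ ρ₂).mpr hcop
    · rw [← hE, mul_pow, hθ]
      simp

/-- Case II of Fermat's Last Theorem for `p`, from the factor structure theorem and Kummer's
lemma. -/
theorem h4kum_caseII_of_factorStructure (hp2 : p ≠ 2) (hfac : FactorStructure hζ)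
    (hK : KummerLemma p K) : CaseII p := by
  intro a b c ha hb hc hab hpc H
  have hp0 : p ≠ 0 := hp.out.ne_zero
  have hpp : Prime (p : ℤ) := Nat.prime_iff_prime_int.mp hp.out
  have hca : IsCoprime c a := isCoprime_of_add_pow_eq_left hp0 H hab
  have hcb : IsCoprime c b := isCoprime_of_add_pow_eq_right hp0 H hab
  have hpa : ¬ (p : ℤ) ∣ a := fun h => hpp.not_isUnit (hca.isUnit_of_dvd' hpc h)
  have hpb : ¬ (p : ℤ) ∣ b := fun h => hpp.not_isUnit (hcb.isUnit_of_dvd' hpc h)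
  have hlam : Prime (hζ.toInteger - 1) := hζ.zeta_sub_one_prime'
  have ha' : ¬ (hζ.toInteger - 1) ∣ (a : 𝓞 K) := by
    rw [h26_lam_dvd_intCast_iff hζ hp2]; exact hpa
  have hb' : ¬ (hζ.toInteger - 1) ∣ (b : 𝓞 K) := by
    rw [h26_lam_dvd_intCast_iff hζ hp2]; exact hpb
  have hc' : (hζ.toInteger - 1) ∣ (c : 𝓞 K) := by
    rw [h26_lam_dvd_intCast_iff hζ hp2]; exact hpc
  have hc0 : (c : 𝓞 K) ≠ 0 := Int.cast_ne_zero.mpr hc
  obtain ⟨c₀, hc₀, hndvd⟩ :=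
    (FiniteMultiplicity.of_not_isUnit hlam.not_isUnit hc0).exists_eq_pow_mul_and_not_dvd
  have hn : 1 ≤ multiplicity (hζ.toInteger - 1) (c : 𝓞 K) := by
    rcases Nat.eq_zero_or_pos (multiplicity (hζ.toInteger - 1) (c : 𝓞 K)) with h0 | h0
    · exfalso
      rw [h0, pow_zero, one_mul] at hc₀
      exact hndvd (hc₀ ▸ hc')
    · exact h0
  refine h4kum_no_solution hζ hp2 hfac hK _ (a : 𝓞 K) (b : 𝓞 K) (c : 𝓞 K) 1 c₀ ha' hb'
    hab.intCast hc₀ hndvd hn ?_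
  have := congrArg (Int.cast : ℤ → 𝓞 K) H
  push_cast at this
  simpa using this

end Fermat.Agent.H4Kum
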