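import Mathlib
import Fermat.Agent.Kum.CycloBasic

/-!
# Case II of Kummer's descent, steps (1)+(2): structure of the factors `a + ζ^i b` (helper26)
-/

open NumberField Polynomial

set_option linter.unusedSectionVars false
set_option linter.style.haveILetI false
set_option linter.unusedVariables false

namespace Fermat.Agent.H4Kum

variable {p : ℕ} [hp : Fact p.Prime] {K : Type*} [Field K] [NumberField K]
  [IsCyclotomicExtension {p} ℚ K] {ζ : K} (hζ : IsPrimitiveRoot ζ p)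

/-- `λ ∣ ζ^i - ζ^j` for all `i, j`. -/
theorem h26_lam_dvd_pow_sub_pow (i j : ℕ) :
    (hζ.toInteger - 1) ∣ hζ.toInteger ^ i - hζ.toInteger ^ j := by
  have h1 : (hζ.toInteger - 1) ∣ hζ.toInteger ^ i - 1 := by
    simpa using sub_dvd_pow_sub_pow hζ.toInteger 1 i
  have h2 : (hζ.toInteger - 1) ∣ hζ.toInteger ^ j - 1 := by
    simpa using sub_dvd_pow_sub_pow hζ.toInteger 1 j
  have : hζ.toInteger ^ i - hζ.toInteger ^ j =
      (hζ.toInteger ^ i - 1) - (hζ.toInteger ^ j - 1) := by ring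
  rw [this]
  exact dvd_sub h1 h2

/-- If `λ ∣ c` and `a^p + b^p = u c^p` then `λ` divides every factor `a + ζ^i b`. -/
theorem h26_lam_dvd_factor (hp2 : p ≠ 2) (a b c : 𝓞 K) (u : (𝓞 K)ˣ)
    (hcdvd : (hζ.toInteger - 1) ∣ c) (H : a ^ p + b ^ p = u * c ^ p) (i : ℕ) :
    (hζ.toInteger - 1) ∣ a + hζ.toInteger ^ i * b := by
  have hL : Prime (hζ.toInteger - 1) := hζ.zeta_sub_one_prime'
  have hprod : (hζ.toInteger - 1) ∣ ∏ i ∈ Finset.range p, (a + hζ.toInteger ^ i * b) := by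
    rw [← h26_pow_add_pow_eq_prod hζ hp2, H]
    exact Dvd.dvd.mul_left (dvd_pow hcdvd hp.out.ne_zero) _
  obtain ⟨i₀, -, hi₀⟩ := (Prime.dvd_finsetProd_iff hL _).mp hprod
  have : a + hζ.toInteger ^ i * b =
      (a + hζ.toInteger ^ i₀ * b) + (hζ.toInteger ^ i - hζ.toInteger ^ i₀) * b := by ring
  rw [this]
  exact dvd_add hi₀ (Dvd.dvd.mul_right (h26_lam_dvd_pow_sub_pow hζ i i₀) _)

/-- The quotients `g i = (a + ζ^i b)/λ` are pairwise coprime for `i ≢ j mod p`. -/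
theorem h26_isCoprime_quot (a b : 𝓞 K) (hcop : IsCoprime a b) (g : ℕ → 𝓞 K)
    (hg : ∀ i, a + hζ.toInteger ^ i * b = (hζ.toInteger - 1) * g i)
    {i j : ℕ} (hij : ¬ i ≡ j [MOD p]) : IsCoprime (g i) (g j) := by
  have hL : Prime (hζ.toInteger - 1) := hζ.zeta_sub_one_prime'
  obtain ⟨x, y, hxy⟩ := hcop
  obtain ⟨w, hw⟩ := h26_associated_pow_sub_pow hζ (fun h => hij h.symm)
  -- hw : (Z - 1) * w = Z^j - Z^i
  have key : (hζ.toInteger - 1) * ((x * hζ.toInteger ^ j - y) * g i +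
      (y - x * hζ.toInteger ^ i) * g j) = (hζ.toInteger - 1) * w := by
    rw [hw]
    have e1 : (hζ.toInteger - 1) * ((x * hζ.toInteger ^ j - y) * g i +
        (y - x * hζ.toInteger ^ i) * g j) =
        (x * hζ.toInteger ^ j - y) * ((hζ.toInteger - 1) * g i) +
        (y - x * hζ.toInteger ^ i) * ((hζ.toInteger - 1) * g j) := by ring
    rw [e1, ← hg i, ← hg j]
    have e2 : (x * hζ.toInteger ^ j - y) * (a + hζ.toInteger ^ i * b) +
        (y - x * hζ.toInteger ^ i) * (a + hζ.toInteger ^ j * b) =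
        (hζ.toInteger ^ j - hζ.toInteger ^ i) * (x * a + y * b) := by ring
    rw [e2, hxy, mul_one]
  have key2 := mul_left_cancel₀ hL.ne_zero key
  refine ⟨(↑w⁻¹ : 𝓞 K) * (x * hζ.toInteger ^ j - y), (↑w⁻¹ : 𝓞 K) * (y - x * hζ.toInteger ^ i), ?_⟩
  have : (↑w⁻¹ : 𝓞 K) * (x * hζ.toInteger ^ j - y) * g i +
      (↑w⁻¹ : 𝓞 K) * (y - x * hζ.toInteger ^ i) * g j =
      (↑w⁻¹ : 𝓞 K) * ((x * hζ.toInteger ^ j - y) * g i + (y - x * hζ.toInteger ^ i) * g j) := by
    ring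
  rw [this, key2]
  simp

/-- `λ ∤ g i - g j` for `i ≢ j mod p`. -/
theorem h26_not_dvd_quot_sub (a b : 𝓞 K) (hb : ¬ (hζ.toInteger - 1) ∣ b) (g : ℕ → 𝓞 K)
    (hg : ∀ i, a + hζ.toInteger ^ i * b = (hζ.toInteger - 1) * g i)
    {i j : ℕ} (hij : ¬ i ≡ j [MOD p]) : ¬ (hζ.toInteger - 1) ∣ g i - g j := by
  have hL : Prime (hζ.toInteger - 1) := hζ.zeta_sub_one_prime'
  obtain ⟨w, hw⟩ := h26_associated_pow_sub_pow hζ hij
  have key : (hζ.toInteger - 1) * (g i - g j) = (hζ.toInteger - 1) * (w * b) := by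
    rw [mul_sub, ← hg i, ← hg j, ← mul_assoc, hw]
    ring
  have key2 := mul_left_cancel₀ hL.ne_zero key
  rw [key2]
  intro h
  exact hb ((Units.dvd_mul_left).mp (by rwa [mul_comm] at h))

/-- Pigeonhole: some `g k`, `k < p`, is divisible by `λ`. -/
theorem h26_exists_lam_dvd_quot (hp2 : p ≠ 2) (a b : 𝓞 K) (hb : ¬ (hζ.toInteger - 1) ∣ b)
    (g : ℕ → 𝓞 K) (hg : ∀ i, a + hζ.toInteger ^ i * b = (hζ.toInteger - 1) * g i) :
    ∃ k, k < p ∧ (hζ.toInteger - 1) ∣ g k := by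
  have hcard := h26_card_quotient hζ hp2
  have hfin : Finite (𝓞 K ⧸ Ideal.span {hζ.toInteger - 1}) :=
    Nat.finite_of_card_ne_zero (by rw [hcard]; exact hp.out.ne_zero)
  let φ : Fin p → 𝓞 K ⧸ Ideal.span {hζ.toInteger - 1} :=
    fun i => Ideal.Quotient.mk _ (g (i : ℕ))
  have hinj : Function.Injective φ := by
    intro i j hij
    by_contra hne
    simp only [φ] at hij
    rw [Ideal.Quotient.eq, Ideal.mem_span_singleton] at hij
    refine h26_not_dvd_quot_sub hζ a b hb g hg ?_ hij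
    intro hmod
    apply hne
    apply Fin.ext
    have := Nat.ModEq.eq_of_lt_of_lt hmod i.2 j.2
    exact this
  have hbij : Function.Bijective φ :=
    hinj.bijective_of_nat_card_le (by rw [hcard, Nat.card_fin])
  obtain ⟨k, hk⟩ := hbij.2 0
  refine ⟨k, k.2, ?_⟩
  simp only [φ] at hk
  rwa [Ideal.Quotient.eq_zero_iff_mem, Ideal.mem_span_singleton] at hk


/-- In a PID: a member of a pairwise coprime finite family whose product is associated to a
`n`-th power is itself associated to an `n`-th power. -/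
theorem h26_exists_associated_pow_of_prod {R : Type*} [CommRing R] [IsDomain R]
    [IsPrincipalIdealRing R] {ι : Type*} [DecidableEq ι] (s : Finset ι) (G : ι → R) (n : ℕ)
    (c : R) (u : Rˣ) (hprod : ∏ i ∈ s, G i = u * c ^ n)
    (hcop : ∀ i ∈ s, ∀ j ∈ s, i ≠ j → IsCoprime (G i) (G j)) {i : ι} (hi : i ∈ s) :
    ∃ (d : R) (v : Rˣ), G i = v * d ^ n := by
  have h1 : IsCoprime (G i) (∏ j ∈ s.erase i, G j) := by
    apply IsCoprime.prod_right
    intro j hj
    exact hcop i hi j (Finset.mem_of_mem_erase hj) (Finset.ne_of_mem_erase hj).symm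
  have h2 : Associated (c ^ n) (G i * ∏ j ∈ s.erase i, G j) := by
    rw [Finset.mul_prod_erase s G hi, hprod]
    exact ⟨u, by ring⟩
  obtain ⟨d, v, hv⟩ := exists_associated_pow_of_associated_pow_mul h1 h2
  exact ⟨d, v, by rw [← hv]; ring⟩

/-- Steps (1)+(2) of the case II descent: structure of the factors `a + ζ^i b`. -/
theorem h26_factor_structure (hp2 : p ≠ 2) [IsPrincipalIdealRing (𝓞 K)]
    (a b c : 𝓞 K) (u : (𝓞 K)ˣ)
    (ha : ¬ (hζ.toInteger - 1) ∣ a) (hb : ¬ (hζ.toInteger - 1) ∣ b) (hc : c ≠ 0)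
    (hcop : IsCoprime a b) (hcdvd : (hζ.toInteger - 1) ∣ c)
    (H : a ^ p + b ^ p = u * c ^ p) :
    ∃ (k m : ℕ) (c₀ : 𝓞 K) (ε₀ ε₁ ε₂ : (𝓞 K)ˣ) (ρ₀ ρ₁ ρ₂ : 𝓞 K),
      2 ≤ m ∧ c = (hζ.toInteger - 1) ^ m * c₀ ∧ ¬ (hζ.toInteger - 1) ∣ c₀ ∧
      a + hζ.toInteger ^ k * b = ε₀ * (hζ.toInteger - 1) ^ (p * (m - 1) + 1) * ρ₀ ^ p ∧
      a + hζ.toInteger ^ (k + 1) * b = ε₁ * (hζ.toInteger - 1) * ρ₁ ^ p ∧
      a + hζ.toInteger ^ (k + (p - 1)) * b = ε₂ * (hζ.toInteger - 1) * ρ₂ ^ p ∧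
      ¬ (hζ.toInteger - 1) ∣ ρ₀ ∧ ¬ (hζ.toInteger - 1) ∣ ρ₁ ∧ ¬ (hζ.toInteger - 1) ∣ ρ₂ ∧
      IsCoprime ρ₁ ρ₂ := by
  classical
  have hL : Prime (hζ.toInteger - 1) := hζ.zeta_sub_one_prime'
  have hp0 : p ≠ 0 := hp.out.ne_zero
  have hp3 : 3 ≤ p := by
    have := hp.out.two_le
    omega
  have hZp : hζ.toInteger ^ p = 1 := hζ.toInteger_isPrimitiveRoot.pow_eq_one
  -- the quotients `g i`
  have hdvd : ∀ i, (hζ.toInteger - 1) ∣ a + hζ.toInteger ^ i * b :=
    h26_lam_dvd_factor hζ hp2 a b c u hcdvd H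
  choose g hg using hdvd
  obtain ⟨k, hkp, hk⟩ := h26_exists_lam_dvd_quot hζ hp2 a b hb g hg
  have hcopg : ∀ {i j : ℕ}, ¬ i ≡ j [MOD p] → IsCoprime (g i) (g j) :=
    fun h => h26_isCoprime_quot hζ a b hcop g hg h
  have hnd : ∀ i, ¬ i ≡ k [MOD p] → ¬ (hζ.toInteger - 1) ∣ g i := by
    intro i hik hdi
    exact hL.not_isUnit ((hcopg hik).isUnit_of_dvd' hdi hk)
  have hne_of_lt : ∀ {i j : ℕ}, i < p → j < p → i ≠ j → ¬ i ≡ j [MOD p] :=
    fun hi hj hij h => hij (Nat.ModEq.eq_of_lt_of_lt h hi hj)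
  -- `c = λ^m c₀`
  have hfin : FiniteMultiplicity (hζ.toInteger - 1) c :=
    FiniteMultiplicity.of_not_isUnit hL.not_isUnit hc
  obtain ⟨c₀, hc₀, hc₀nd⟩ := hfin.exists_eq_pow_mul_and_not_dvd
  generalize multiplicity (hζ.toInteger - 1) c = m at hc₀
  have hm1 : 1 ≤ m := by
    by_contra h
    have hm0 : m = 0 := by omega
    rw [hm0, pow_zero, one_mul] at hc₀
    exact hc₀nd (hc₀ ▸ hcdvd)
  -- the product of the `g i`
  have hprod : ∏ i ∈ Finset.range p, g i =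
      u * (hζ.toInteger - 1) ^ (p * (m - 1)) * c₀ ^ p := by
    have h1 : (hζ.toInteger - 1) ^ p * ∏ i ∈ Finset.range p, g i =
        (hζ.toInteger - 1) ^ p * (u * (hζ.toInteger - 1) ^ (p * (m - 1)) * c₀ ^ p) := by
      calc (hζ.toInteger - 1) ^ p * ∏ i ∈ Finset.range p, g i
          = ∏ i ∈ Finset.range p, ((hζ.toInteger - 1) * g i) := by
            rw [Finset.prod_mul_distrib, Finset.prod_const, Finset.card_range]
        _ = ∏ i ∈ Finset.range p, (a + hζ.toInteger ^ i * b) :=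
            Finset.prod_congr rfl (fun i _ => (hg i).symm)
        _ = a ^ p + b ^ p := (h26_pow_add_pow_eq_prod hζ hp2 a b).symm
        _ = u * c ^ p := H
        _ = (hζ.toInteger - 1) ^ p * (u * (hζ.toInteger - 1) ^ (p * (m - 1)) * c₀ ^ p) := by
            rw [hc₀, mul_pow, ← pow_mul]
            have hmp : m * p = p + p * (m - 1) := by
              obtain ⟨m', rfl⟩ : ∃ m', m = m' + 1 := ⟨m - 1, by omega⟩
              simp only [Nat.add_sub_cancel]
              ring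
            rw [hmp, pow_add]
            ring
    exact mul_left_cancel₀ (pow_ne_zero _ hL.ne_zero) h1
  have hkmem : k ∈ Finset.range p := Finset.mem_range.mpr hkp
  have hprod' : g k * ∏ i ∈ (Finset.range p).erase k, g i =
      u * (hζ.toInteger - 1) ^ (p * (m - 1)) * c₀ ^ p := by
    rw [Finset.mul_prod_erase _ g hkmem, hprod]
  -- `λ^(p(m-1))` divides `g k`
  have hcopL : IsCoprime ((hζ.toInteger - 1) ^ (p * (m - 1)))
      (∏ i ∈ (Finset.range p).erase k, g i) := by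
    apply IsCoprime.pow_left
    apply IsCoprime.prod_right
    intro i hi
    rw [hL.irreducible.coprime_iff_not_dvd]
    exact hnd i (hne_of_lt (Finset.mem_range.mp (Finset.mem_of_mem_erase hi)) hkp
      (Finset.ne_of_mem_erase hi))
  have hLdvd : (hζ.toInteger - 1) ^ (p * (m - 1)) ∣ g k := by
    apply hcopL.dvd_of_dvd_mul_right
    rw [hprod']
    exact ⟨u * c₀ ^ p, by ring⟩
  obtain ⟨h, hh⟩ := hLdvd
  have hprodh : h * ∏ i ∈ (Finset.range p).erase k, g i = u * c₀ ^ p := by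
    have h2 : (hζ.toInteger - 1) ^ (p * (m - 1)) * (h * ∏ i ∈ (Finset.range p).erase k, g i) =
        (hζ.toInteger - 1) ^ (p * (m - 1)) * (u * c₀ ^ p) := by
      rw [← mul_assoc, ← hh, hprod']
      ring
    exact mul_left_cancel₀ (pow_ne_zero _ hL.ne_zero) h2
  have hhnd : ¬ (hζ.toInteger - 1) ∣ h := by
    intro hd
    have h3 : (hζ.toInteger - 1) ∣ (u : 𝓞 K) * c₀ ^ p := by
      rw [← hprodh]
      exact Dvd.dvd.mul_right hd _
    rcases hL.dvd_or_dvd h3 with h4 | h4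
    · exact hL.not_isUnit (isUnit_of_dvd_unit h4 u.isUnit)
    · exact hc₀nd (hL.dvd_of_dvd_pow h4)
  have hm2 : 2 ≤ m := by
    by_contra hlt
    have hm : m = 1 := by omega
    rw [hm] at hh
    simp only [Nat.sub_self, mul_zero, pow_zero, one_mul] at hh
    exact hhnd (hh ▸ hk)
  -- the modified family
  set G : ℕ → 𝓞 K := fun i => if i = k then h else g i with hG
  have hGk : G k = h := by simp [hG]
  have hGne : ∀ i, i ≠ k → G i = g i := fun i hi => by simp [hG, hi]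
  have hGprod : ∏ i ∈ Finset.range p, G i = u * c₀ ^ p := by
    rw [← Finset.mul_prod_erase _ G hkmem, hGk, ← hprodh]
    congr 1
    exact Finset.prod_congr rfl (fun i hi => hGne i (Finset.ne_of_mem_erase hi))
  have hhdvd : h ∣ g k := ⟨(hζ.toInteger - 1) ^ (p * (m - 1)), by rw [hh]; ring⟩
  have hGcop : ∀ i ∈ Finset.range p, ∀ j ∈ Finset.range p, i ≠ j → IsCoprime (G i) (G j) := by
    intro i hi j hj hij
    have hi' := Finset.mem_range.mp hi
    have hj' := Finset.mem_range.mp hj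
    by_cases hik : i = k
    · have hjk : j ≠ k := fun h' => hij (hik.trans h'.symm)
      rw [hik, hGk, hGne j hjk]
      exact (hcopg (hne_of_lt hkp hj' hjk.symm)).of_isCoprime_of_dvd_left hhdvd
    · by_cases hjk : j = k
      · rw [hjk, hGk, hGne i hik]
        exact (hcopg (hne_of_lt hi' hkp hik)).of_isCoprime_of_dvd_right hhdvd
      · rw [hGne i hik, hGne j hjk]
        exact hcopg (hne_of_lt hi' hj' hij)
  -- the three indices
  have hk1lt : (k + 1) % p < p := Nat.mod_lt _ hp.out.pos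
  have hk2lt : (k + (p - 1)) % p < p := Nat.mod_lt _ hp.out.pos
  have hk1ne : ¬ (k + 1) % p ≡ k [MOD p] := by
    intro h'
    have h1 : k + 1 ≡ k + 0 [MOD p] := ((Nat.mod_modEq _ _).symm.trans h').trans (by simp [Nat.ModEq])
    have h2 : 1 ≡ 0 [MOD p] := Nat.ModEq.add_left_cancel' k h1
    have h3 : p ∣ 1 := (Nat.modEq_zero_iff_dvd).mp h2
    have := Nat.le_of_dvd one_pos h3
    omega
  have hk2ne : ¬ (k + (p - 1)) % p ≡ k [MOD p] := by
    intro h'
    have h1 : k + (p - 1) ≡ k + 0 [MOD p] :=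
      ((Nat.mod_modEq _ _).symm.trans h').trans (by simp [Nat.ModEq])
    have h2 : p - 1 ≡ 0 [MOD p] := Nat.ModEq.add_left_cancel' k h1
    have h3 : p ∣ p - 1 := (Nat.modEq_zero_iff_dvd).mp h2
    have := Nat.le_of_dvd (by omega) h3
    omega
  have hk12ne : ¬ (k + 1) % p ≡ (k + (p - 1)) % p [MOD p] := by
    intro h'
    have h1 : k + 1 ≡ k + (p - 1) [MOD p] :=
      ((Nat.mod_modEq _ _).symm.trans h').trans (Nat.mod_modEq _ _)
    have h2 : 1 ≡ p - 1 [MOD p] := Nat.ModEq.add_left_cancel' k h1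
    have h3 : p ∣ (p - 1) - 1 := (Nat.modEq_iff_dvd' (by omega)).mp h2
    have := Nat.le_of_dvd (by omega) h3
    omega
  have hk1ne' : (k + 1) % p ≠ k := by
    intro h'
    apply hk1ne
    rw [h']
  have hk2ne' : (k + (p - 1)) % p ≠ k := by
    intro h'
    apply hk2ne
    rw [h']
  have hZ1 : hζ.toInteger ^ (k + 1) = hζ.toInteger ^ ((k + 1) % p) := pow_eq_pow_mod _ hZp
  have hZ2 : hζ.toInteger ^ (k + (p - 1)) = hζ.toInteger ^ ((k + (p - 1)) % p) :=
    pow_eq_pow_mod _ hZp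
  -- extraction of the `p`-th powers
  obtain ⟨d₀, v₀, hv₀⟩ := h26_exists_associated_pow_of_prod (Finset.range p) G p c₀ u hGprod
    hGcop hkmem
  obtain ⟨d₁, v₁, hv₁⟩ := h26_exists_associated_pow_of_prod (Finset.range p) G p c₀ u hGprod
    hGcop (Finset.mem_range.mpr hk1lt)
  obtain ⟨d₂, v₂, hv₂⟩ := h26_exists_associated_pow_of_prod (Finset.range p) G p c₀ u hGprod
    hGcop (Finset.mem_range.mpr hk2lt)
  rw [hGk] at hv₀
  rw [hGne _ hk1ne'] at hv₁
  rw [hGne _ hk2ne'] at hv₂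
  refine ⟨k, m, c₀, v₀, v₁, v₂, d₀, d₁, d₂, hm2, hc₀, hc₀nd, ?_, ?_, ?_, ?_, ?_, ?_, ?_⟩
  · rw [hg k, hh, hv₀, pow_succ]
    ring
  · rw [hZ1, hg, hv₁]
    ring
  · rw [hZ2, hg, hv₂]
    ring
  · intro hd
    apply hhnd
    rw [hv₀]
    exact Dvd.dvd.mul_left (dvd_pow hd hp0) _
  · intro hd
    apply hnd _ hk1ne
    rw [hv₁]
    exact Dvd.dvd.mul_left (dvd_pow hd hp0) _
  · intro hd
    apply hnd _ hk2ne
    rw [hv₂]
    exact Dvd.dvd.mul_left (dvd_pow hd hp0) _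
  · have h12 := hcopg hk12ne
    have hd1 : d₁ ∣ g ((k + 1) % p) := by
      rw [hv₁]
      exact Dvd.dvd.mul_left (dvd_pow_self d₁ hp0) _
    have hd2 : d₂ ∣ g ((k + (p - 1)) % p) := by
      rw [hv₂]
      exact Dvd.dvd.mul_left (dvd_pow_self d₂ hp0) _
    exact (h12.of_isCoprime_of_dvd_left hd1).of_isCoprime_of_dvd_right hd2

end Fermat.Agent.H4Kum
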