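import Fermat.Agent.Kum.CaseII
import Fermat.Prelude.Def_FLTPrelim_FreyPackage

/-!
# T-Kum glue (helper4): a Frey package with exponent `p` contradicts `NoCoprimeSolution p`
-/

open NumberField

namespace Fermat.Agent.H4Kum

/-- A Frey package is a solution of Fermat's equation in nonzero coprime integers. -/
theorem h4kum_freyPackage_false (P : FreyPackage) (h : NoCoprimeSolution P.p) : False := by
  refine h P.a P.b P.c P.ha0 P.hb0 P.hc0 ?_ P.hFLT
  rw [Int.isCoprime_iff_gcd_eq_one]
  have h1 : ((Int.gcd P.a P.b : ℕ) : ℤ) = 1 := by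
    rw [Int.coe_gcd]; exact P.hgcdab
  exact_mod_cast h1

/-- All inputs of the Kummer route together exclude a Frey package with exponent `p`. -/
theorem h4kum_freyPackage_false_of_kummer (P : FreyPackage)
    (K : Type*) [Field K] [NumberField K] [hp : Fact P.p.Prime] [IsCyclotomicExtension {P.p} ℚ K]
    {ζ : K} (hζ : IsPrimitiveRoot ζ P.p)
    (hI : CaseI P.p) (hfac : FactorStructure hζ) (hK : KummerLemma P.p K) : False := by
  have hp2 : P.p ≠ 2 := by have := P.hp5; omega
  exact h4kum_freyPackage_false P
    (noCoprimeSolution_of_caseI_of_caseII P.pp P.hp_odd hI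
      (h4kum_caseII_of_factorStructure hζ hp2 hfac hK))

end Fermat.Agent.H4Kum
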