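import Fermat.Agent.Kum.CaseII
import Fermat.Agent.Kum.CaseIIFactors
import Fermat.Agent.Kum.Glue

/-!
# Case II of FLT for a prime `p ≥ 3` with `𝓞 ℚ(ζ_p)` a PID satisfying Kummer's lemma (T-Kum KB)
-/

open NumberField

namespace Fermat.Agent.H4Kum

/-- The factor structure theorem of helper26 in the packaged form used by the descent. -/
theorem h4kum_factorStructure {p : ℕ} [hp : Fact p.Prime] (hp2 : p ≠ 2)
    {K : Type*} [Field K] [NumberField K] [IsCyclotomicExtension {p} ℚ K]
    [IsPrincipalIdealRing (𝓞 K)] {ζ : K} (hζ : IsPrimitiveRoot ζ p) : FactorStructure hζ :=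
  fun a b c u ha hb hc hcop hcdvd H => h26_factor_structure hζ hp2 a b c u ha hb hc hcop hcdvd H

/-- **Case II** of Fermat's Last Theorem for an odd prime `p` such that the ring of integers of
the `p`-th cyclotomic field is a PID in which Kummer's lemma holds. -/
theorem caseII_of_pid_of_kummerLemma (p : ℕ) [hp : Fact p.Prime] (hp2 : p ≠ 2)
    (K : Type*) [Field K] [NumberField K] [IsCyclotomicExtension {p} ℚ K]
    [IsPrincipalIdealRing (𝓞 K)] (hK : KummerLemma p K) : CaseII p :=
  h4kum_caseII_of_factorStructure (IsCyclotomicExtension.zeta_spec p ℚ K) hp2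
    (h4kum_factorStructure hp2 _) hK

/-- No Frey package with exponent `p` exists, given case I, the PID property and Kummer's lemma. -/
theorem freyPackage_false_of_pid_of_kummerLemma (P : FreyPackage)
    (K : Type*) [Field K] [NumberField K] [hp : Fact P.p.Prime] [IsCyclotomicExtension {P.p} ℚ K]
    [IsPrincipalIdealRing (𝓞 K)] (hI : CaseI P.p) (hK : KummerLemma P.p K) : False := by
  have hp2 : P.p ≠ 2 := by have := P.hp5; omega
  exact h4kum_freyPackage_false_of_kummer P K (IsCyclotomicExtension.zeta_spec P.p ℚ K) hI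
    (h4kum_factorStructure hp2 _) hK

end Fermat.Agent.H4Kum
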