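import Fermat.Agent.Kum.Defs

/-!
# Case II of FLT for a prime `p`: abstract setting (helper4, T-Kum slice KB)

We run Kummer's descent in an abstract principal ideal domain `R` carrying a primitive `p`-th
root of unity `ζ` such that `ζ - 1` is prime, `(ζ - 1) ^ (p - 1)` is associated to `p`, and every
residue class modulo `ζ - 1` contains a rational integer.  `R = 𝓞 K` for the `p`-th cyclotomic
field `K` is an instance (see `CaseII.lean`).
-/

namespace Fermat.Agent.H4Kum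

/-- A commutative ring with a primitive `p`-th root of unity `ζ` behaving like `ℤ[ζ_p]`. -/
structure CycRing (p : ℕ) (R : Type*) [CommRing R] where
  /-- the root of unity -/
  ζ : R
  hζ : IsPrimitiveRoot ζ p
  prime_lam : Prime (ζ - 1)
  assoc : Associated ((ζ - 1) ^ (p - 1)) (p : R)
  int_mod_lam : ∀ x : R, ∃ n : ℤ, (ζ - 1) ∣ x - (n : R)

variable {p : ℕ} {R : Type*} [CommRing R]

/-- The prime element `λ = ζ - 1`. -/
def CycRing.lam (C : CycRing p R) : R := C.ζ - 1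

/-- A solution of the generalised Fermat equation `x ^ p + y ^ p = ε (λ ^ m z) ^ p` with
`x`, `y`, `z` prime to `λ`, `x` and `y` coprime and `ε` a unit. -/
def CycRing.GenSol (C : CycRing p R) (m : ℕ) : Prop :=
  ∃ (x y z : R) (ε : Rˣ), IsCoprime x y ∧ ¬ C.lam ∣ x ∧ ¬ C.lam ∣ y ∧ ¬ C.lam ∣ z ∧
    x ^ p + y ^ p = ε * (C.lam ^ m * z) ^ p

/-- The statement of the factorisation step (slice KB1): for a generalised solution at level
`m ≥ 1` one has `m ≥ 2`, and after twisting `y` by a power of `ζ` the three factors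
`x + y`, `x + ζ y`, `x + ζ⁻¹ y` are, up to units and the indicated powers of `λ`, `p`-th powers. -/
def CycRing.FactorisationStep (C : CycRing p R) : Prop :=
  ∀ (m : ℕ) (x y z : R) (ε : Rˣ), 1 ≤ m → IsCoprime x y → ¬ C.lam ∣ x → ¬ C.lam ∣ y →
    ¬ C.lam ∣ z → x ^ p + y ^ p = ε * (C.lam ^ m * z) ^ p →
    2 ≤ m ∧ ∃ (i : ℕ) (ρ₀ ρ₁ ρ₂ : R) (η₀ η₁ η₂ : Rˣ),
      ¬ C.lam ∣ ρ₀ ∧ ¬ C.lam ∣ ρ₁ ∧ ¬ C.lam ∣ ρ₂ ∧ IsCoprime ρ₁ ρ₂ ∧
      x + C.ζ ^ i * y = η₀ * C.lam ^ (p * (m - 1) + 1) * ρ₀ ^ p ∧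
      x + C.ζ ^ (i + 1) * y = η₁ * C.lam * ρ₁ ^ p ∧
      x + C.ζ ^ (i + (p - 1)) * y = η₂ * C.lam * ρ₂ ^ p

end Fermat.Agent.H4Kum
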