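import Mathlib

/-!
# Kummer route to FLT for the exponents 5, 7, 11, 13 (helper4): interface definitions

`S10`/`S11` assume a `FreyPackage` with `p ∈ {5, 7, 13}` resp. `p = 11`; such a package is a
counterexample to Fermat's Last Theorem for the exponent `p`, so both statements follow from
`FermatLastTheoremFor p` for these four primes.  We split FLT for `p` in the two classical cases.
-/

open NumberField

namespace Fermat.Agent.H4Kum

/-- Kummer's lemma for the prime `p` in the `p`-th cyclotomic field `K`: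
a unit congruent to a rational integer mod `p` is a `p`-th power. -/
def KummerLemma (p : ℕ) (K : Type*) [Field K] [NumberField K] : Prop :=
  ∀ u : (𝓞 K)ˣ, (∃ a : ℤ, (p : 𝓞 K) ∣ (u : 𝓞 K) - (a : 𝓞 K)) → ∃ v : (𝓞 K)ˣ, u = v ^ p

/-- Case I of Fermat's Last Theorem for the exponent `p`. -/
def CaseI (p : ℕ) : Prop :=
  ∀ a b c : ℤ, ¬ (p : ℤ) ∣ a * b * c → a ^ p + b ^ p ≠ c ^ p

/-- Case II of Fermat's Last Theorem for the exponent `p`, normalised so that `p ∣ c`. -/
def CaseII (p : ℕ) : Prop :=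
  ∀ a b c : ℤ, a ≠ 0 → b ≠ 0 → c ≠ 0 → IsCoprime a b → (p : ℤ) ∣ c → a ^ p + b ^ p ≠ c ^ p

/-- Fermat's equation with nonzero coprime integers, in the form used by `FreyPackage`. -/
def NoCoprimeSolution (p : ℕ) : Prop :=
  ∀ a b c : ℤ, a ≠ 0 → b ≠ 0 → c ≠ 0 → IsCoprime a b → a ^ p + b ^ p ≠ c ^ p

theorem isCoprime_of_add_pow_eq_left {p : ℕ} (hp : p ≠ 0) {a b c : ℤ} (h : a ^ p + b ^ p = c ^ p)
    (hab : IsCoprime a b) : IsCoprime c a := by
  rw [Int.isCoprime_iff_gcd_eq_one]
  by_contra hne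
  obtain ⟨q, hq, hqd⟩ := Nat.exists_prime_and_dvd hne
  have hqc : (q : ℤ) ∣ c := Int.natCast_dvd.mpr (hqd.trans (Int.gcd_dvd_natAbs_left c a))
  have hqa : (q : ℤ) ∣ a := Int.natCast_dvd.mpr (hqd.trans (Int.gcd_dvd_natAbs_right c a))
  have hq' : Prime (q : ℤ) := Nat.prime_iff_prime_int.mp hq
  have hqb : (q : ℤ) ∣ b := by
    have h1 : (q : ℤ) ∣ b ^ p := by
      have : b ^ p = c ^ p - a ^ p := by rw [← h]; ring
      rw [this]
      exact dvd_sub (dvd_pow hqc hp) (dvd_pow hqa hp)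
    exact hq'.dvd_of_dvd_pow h1
  exact hq'.not_isUnit (hab.isUnit_of_dvd' hqa hqb)

theorem isCoprime_of_add_pow_eq_right {p : ℕ} (hp : p ≠ 0) {a b c : ℤ} (h : a ^ p + b ^ p = c ^ p)
    (hab : IsCoprime a b) : IsCoprime c b :=
  isCoprime_of_add_pow_eq_left hp (by rw [add_comm]; exact h) hab.symm

/-- Case I and Case II together exclude every solution in nonzero coprime integers
(`p` an odd prime). -/
theorem noCoprimeSolution_of_caseI_of_caseII {p : ℕ} (hp : p.Prime) (hodd : Odd p)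
    (h1 : CaseI p) (h2 : CaseII p) : NoCoprimeSolution p := by
  intro a b c ha hb hc hab h
  have hp0 : p ≠ 0 := hp.ne_zero
  by_cases hdvd : (p : ℤ) ∣ a * b * c
  · have hp' : Prime (p : ℤ) := Nat.prime_iff_prime_int.mp hp
    rcases hp'.dvd_or_dvd hdvd with hab' | hc'
    · rcases hp'.dvd_or_dvd hab' with ha' | hb'
      · -- `p ∣ a`: `c ^ p + (-b) ^ p = a ^ p`
        have hcb : IsCoprime c (-b) := (isCoprime_of_add_pow_eq_right hp0 h hab).neg_right
        refine h2 c (-b) a hc (neg_ne_zero.mpr hb) ha hcb ha' ?_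
        rw [hodd.neg_pow, ← h]; ring
      · -- `p ∣ b`: `c ^ p + (-a) ^ p = b ^ p`
        have hca : IsCoprime c (-a) := (isCoprime_of_add_pow_eq_left hp0 h hab).neg_right
        refine h2 c (-a) b hc (neg_ne_zero.mpr ha) hb hca hb' ?_
        rw [hodd.neg_pow, ← h]; ring
    · exact h2 a b c ha hb hc hab hc' h
  · exact h1 a b c hdvd h

/-- Excluding solutions in nonzero coprime integers gives Fermat's Last Theorem for `p`. -/
theorem flt_of_noCoprimeSolution {p : ℕ} (hp : p.Prime) (h : NoCoprimeSolution p) :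
    FermatLastTheoremFor p := by
  rw [fermatLastTheoremFor_iff_int]
  refine fermatLastTheoremWith_of_fermatLastTheoremWith_coprime ?_
  intro a b c ha hb hc hgcd heq
  refine h a b c ha hb hc ?_ heq
  rw [Int.isCoprime_iff_gcd_eq_one]
  by_contra hne
  obtain ⟨q, hq, hqd⟩ := Nat.exists_prime_and_dvd hne
  have hqa : (q : ℤ) ∣ a := Int.natCast_dvd.mpr (hqd.trans (Int.gcd_dvd_natAbs_left a b))
  have hqb : (q : ℤ) ∣ b := Int.natCast_dvd.mpr (hqd.trans (Int.gcd_dvd_natAbs_right a b))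
  have hq' : Prime (q : ℤ) := Nat.prime_iff_prime_int.mp hq
  have hqc : (q : ℤ) ∣ c := by
    have h1 : (q : ℤ) ∣ c ^ p := by
      rw [← heq]
      exact dvd_add (dvd_pow hqa hp.ne_zero) (dvd_pow hqb hp.ne_zero)
    exact hq'.dvd_of_dvd_pow h1
  have h2 : (q : ℤ) ∣ ({a, b, c} : Finset ℤ).gcd id := by
    apply Finset.dvd_gcd
    intro x hx
    simp only [Finset.mem_insert, Finset.mem_singleton] at hx
    rcases hx with rfl | rfl | rfl
    · exact hqa
    · exact hqb
    · exact hqc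
  rw [hgcd] at h2
  exact hq'.not_isUnit (isUnit_of_dvd_one h2)

end Fermat.Agent.H4Kum
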