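import Fermat.Agent.Kum.CaseIIFinal

/-!
# T-Kum (helper4): final packaging — no coprime solution of Fermat's equation for the exponent `p`
from Case I, the PID property of `𝓞 ℚ(ζ_p)` and Kummer's lemma.
-/

open NumberField

namespace Fermat.Agent.H4Kum

/-- Fermat's equation `a ^ p + b ^ p = c ^ p` has no solution in nonzero coprime integers, given
case I, the PID property of the ring of integers of the `p`-th cyclotomic field and Kummer's
lemma. -/
theorem h4kum_noCoprimeSolution (p : ℕ) [hp : Fact p.Prime] (hp2 : p ≠ 2) (hI : CaseI p)
    (K : Type*) [Field K] [NumberField K] [IsCyclotomicExtension {p} ℚ K]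
    (hpid : IsPrincipalIdealRing (𝓞 K)) (hK : KummerLemma p K) : NoCoprimeSolution p :=
  noCoprimeSolution_of_caseI_of_caseII hp.out (hp.out.odd_of_ne_two hp2) hI
    (caseII_of_pid_of_kummerLemma p hp2 K hK)

/-- A Frey package whose exponent is `q` cannot exist if Fermat's equation for `q` has no
solution in nonzero coprime integers. -/
theorem h4kum_freyPackage_false_of_eq (P : FreyPackage) {q : ℕ} (hq : P.p = q)
    (h : NoCoprimeSolution q) : False :=
  h4kum_freyPackage_false P (hq ▸ h)

end Fermat.Agent.H4Kum
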