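import Mathlib

/-!
# T-Kum K2 (helper7): the polynomials `klV k` representing the cyclotomic units in the
coordinate `Y = ζ - 1`, and the generic "logarithmic derivative" core of Kummer's lemma.

`klV 0 = X + 1` (this is `ζ`), and for `k ≥ 1`,
`klV k = ((X + 1) ^ (k + 1) - 1) / X = ∑ i ∈ range (k + 1), C ((k + 1).choose (i + 1)) * X ^ i`
(this is `1 + ζ + ⋯ + ζ ^ k`).
-/

open Polynomial

namespace Fermat.Agent.H7KL

/-- The polynomial in `Y = ζ - 1` giving the unit `ζ` (`k = 0`) resp. `1 + ζ + ⋯ + ζ ^ k`. -/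
noncomputable def klV : ℕ → ℤ[X]
  | 0 => X + 1
  | (k + 1) => ∑ i ∈ Finset.range (k + 2), C (((k + 2).choose (i + 1) : ℕ) : ℤ) * X ^ i

theorem klV_zero : klV 0 = X + 1 := rfl

theorem klV_succ (k : ℕ) :
    klV (k + 1) = ∑ i ∈ Finset.range (k + 2), C (((k + 2).choose (i + 1) : ℕ) : ℤ) * X ^ i := rfl

/-- `klV (k + 1) * X = (X + 1) ^ (k + 2) - 1`. -/
theorem klV_mul_X (k : ℕ) : klV (k + 1) * X = (X + 1) ^ (k + 2) - 1 := by
  have h : (X + 1 : ℤ[X]) ^ (k + 2) =
      ∑ i ∈ Finset.range (k + 2), C (((k + 2).choose (i + 1) : ℕ) : ℤ) * X ^ i * X + 1 := by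
    rw [add_pow, Finset.sum_range_succ']
    simp only [one_pow, mul_one, pow_zero, Nat.choose_zero_right, Nat.cast_one]
    rw [add_left_inj]
    refine Finset.sum_congr rfl fun i _ => ?_
    rw [map_natCast, pow_succ]
    ring
  rw [h, klV_succ, Finset.sum_mul, add_sub_cancel_right]

/-- The value of `klV (k + 1)` at `0` is `k + 2`. -/
theorem klV_succ_coeff_zero (k : ℕ) : (klV (k + 1)).coeff 0 = (k + 2 : ℤ) := by
  rw [klV_succ, finsetSum_coeff, Finset.sum_range_succ']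
  simp [coeff_X_pow]

theorem klV_zero_coeff_zero : (klV 0).coeff 0 = 1 := by
  simp [klV_zero]

theorem klV_coeff_zero (k : ℕ) : (klV k).coeff 0 = if k = 0 then 1 else (k + 1 : ℤ) := by
  cases k with
  | zero => simp [klV_zero_coeff_zero]
  | succ k => simp [klV_succ_coeff_zero]; ring

/-- evaluation of `klV (k+1)` at `ζ - 1`, times `ζ - 1`. -/
theorem aeval_klV_succ_mul {A : Type*} [CommRing A] (z : A) (k : ℕ) :
    aeval (z - 1) (klV (k + 1)) * (z - 1) = z ^ (k + 2) - 1 := by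
  have h := congrArg (aeval (z - 1)) (klV_mul_X k)
  simpa using h

theorem aeval_klV_zero {A : Type*} [CommRing A] (z : A) : aeval (z - 1) (klV 0) = z := by
  simp [klV_zero]

/-- In a domain, if `z ≠ 1`, `aeval (z - 1) (klV k) = ∑ i ∈ range (k + 1), z ^ i` for `k ≥ 1`
(and also for `k = 0` only when read as `z`). -/
theorem aeval_klV_succ {A : Type*} [CommRing A] [IsDomain A] (z : A) (hz : z ≠ 1) (k : ℕ) :
    aeval (z - 1) (klV (k + 1)) = ∑ i ∈ Finset.range (k + 2), z ^ i := by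
  have h1 := aeval_klV_succ_mul z k
  have h2 : (∑ i ∈ Finset.range (k + 2), z ^ i) * (z - 1) = z ^ (k + 2) - 1 := geom_sum_mul z (k + 2)
  exact mul_right_cancel₀ (sub_ne_zero.mpr hz) (h1.trans h2.symm)

end Fermat.Agent.H7KL
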