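import Mathlib
import Fermat.Agent.Kum.KLPoly

/-!
# T-Kum K2-S (helper13): coefficient criterion and the family of cyclotomic units

`K` is a `p`-th cyclotomic field, `ζ` a primitive `p`-th root of unity, `λ = ζ - 1`.

* `coeff_dvd_of_dvd_aeval`: if `p ∣ A(λ)` in `𝓞 K` for `A ∈ ℤ[X]`, then `p` divides the
  coefficients `A_i`, `i < p - 1` (since `1, λ, …, λ^(p-2)` is an integral basis and `p ∣ λ^(p-1)`).
* `exists_unit_family_of`: for any family `V : ℕ → ℤ[X]` with `V 0 = X + 1` and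
  `V (k+1) = ∑ i < k+2, C(k+2, i+1) X^i`, the values `V k (λ)`, `k < (p-1)/2`, are units of `𝓞 K`
  (`V 0 (λ) = ζ`, `V k (λ) = 1 + ζ + … + ζ^k`).
-/

set_option autoImplicit false

namespace Fermat.Agent.H13KL

open NumberField Polynomial IsPrimitiveRoot IsCyclotomicExtension.Rat

theorem coeff_dvd_of_dvd_aeval (p : ℕ) [hp : Fact p.Prime] (K : Type) [Field K] [NumberField K]
    [IsCyclotomicExtension {p} ℚ K] {ζ : K} (hζ : IsPrimitiveRoot ζ p) (A : ℤ[X])
    (h : (p : 𝓞 K) ∣ Polynomial.aeval (hζ.toInteger - 1) A) :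
    ∀ i < p - 1, (p : ℤ) ∣ A.coeff i := by
  classical
  set lam : 𝓞 K := hζ.toInteger - 1 with hlam
  set B := hζ.subOneIntegralPowerBasis with hB
  have hgen : B.gen = lam := by
    rw [hB, subOneIntegralPowerBasis_gen]
    rfl
  have hdim : B.dim = p - 1 := by
    have h1 := B.finrank
    have h2 := hζ.integralPowerBasis.finrank
    rw [integralPowerBasis_dim, Nat.totient_prime hp.out] at h2
    rw [← h1, h2]
  have hpl : (p : 𝓞 K) ∣ lam ^ B.dim := by
    rw [hdim]
    exact (associated_zeta_sub_one_pow_prime p hζ).symm.dvd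
  -- split the sum
  set N := A.natDegree + 1 + B.dim with hN
  have hsum : Polynomial.aeval lam A = ∑ i ∈ Finset.range N, A.coeff i • lam ^ i :=
    Polynomial.aeval_eq_sum_range' (by omega) lam
  have hsplit : ∑ i ∈ Finset.range N, A.coeff i • lam ^ i =
      ∑ i ∈ Finset.range B.dim, A.coeff i • lam ^ i +
        ∑ i ∈ Finset.Ico B.dim N, A.coeff i • lam ^ i := by
    rw [Finset.range_eq_Ico, Finset.range_eq_Ico,
      Finset.sum_Ico_consecutive _ (Nat.zero_le _) (show B.dim ≤ N by omega)]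
  have htail : (p : 𝓞 K) ∣ ∑ i ∈ Finset.Ico B.dim N, A.coeff i • lam ^ i := by
    refine Finset.dvd_sum fun i hi => ?_
    rw [Finset.mem_Ico] at hi
    rw [zsmul_eq_mul]
    exact dvd_mul_of_dvd_right (hpl.trans (pow_dvd_pow lam hi.1)) _
  have hhead : (p : 𝓞 K) ∣ ∑ i ∈ Finset.range B.dim, A.coeff i • lam ^ i := by
    rw [hsum, hsplit] at h
    exact (dvd_add_left htail).mp h
  obtain ⟨y, hy⟩ := hhead
  have hrepr : ∀ i : Fin B.dim, A.coeff i = p * B.basis.repr y i := by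
    intro i
    have h1 : ∑ j ∈ Finset.range B.dim, A.coeff j • lam ^ j =
        ∑ j : Fin B.dim, A.coeff (j : ℕ) • B.basis j := by
      rw [Finset.sum_range]
      refine Finset.sum_congr rfl fun j _ => ?_
      rw [B.basis_eq_pow, hgen]
    have h2 : B.basis.repr (∑ j : Fin B.dim, A.coeff (j : ℕ) • B.basis j) i = A.coeff i := by
      rw [Module.Basis.repr_sum_self]
    have h3 : (p : 𝓞 K) * y = (p : ℤ) • y := by
      rw [zsmul_eq_mul]; norm_cast
    rw [← h2, ← h1, hy, h3, map_smul]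
    simp
  intro i hi
  have hi' : i < B.dim := by omega
  exact ⟨_, hrepr ⟨i, hi'⟩⟩

/-- `(∑ i < k+2, C(k+2, i+1) X^i) * X = (X+1)^(k+2) - 1`. -/
theorem h13_binomSum_mul_X (k : ℕ) :
    (∑ i ∈ Finset.range (k + 2), C ((k + 2).choose (i + 1) : ℤ) * X ^ i) * X =
      (X + 1) ^ (k + 2) - 1 := by
  have h : (X + 1 : ℤ[X]) ^ (k + 2) =
      ∑ i ∈ Finset.range (k + 2), C ((k + 2).choose (i + 1) : ℤ) * X ^ (i + 1) + 1 := by
    rw [add_pow, Finset.sum_range_succ']
    simp only [one_pow, mul_one, pow_zero, Nat.choose_zero_right, Nat.cast_one]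
    congr 1
    refine Finset.sum_congr rfl fun i _ => ?_
    simp only [map_natCast]
    ring
  rw [h, add_sub_cancel_right, Finset.sum_mul]
  refine Finset.sum_congr rfl fun i _ => ?_
  rw [pow_succ, mul_assoc]

/-- The value of `∑ i < k+2, C(k+2, i+1) X^i` at `z - 1` is `1 + z + … + z^(k+1)`. -/
theorem h13_aeval_binomSum {R : Type*} [CommRing R] [IsDomain R] (z : R) (hz : z - 1 ≠ 0)
    (k : ℕ) :
    Polynomial.aeval (z - 1)
        (∑ i ∈ Finset.range (k + 2), C ((k + 2).choose (i + 1) : ℤ) * X ^ i) =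
      ∑ i ∈ Finset.range (k + 2), z ^ i := by
  apply mul_right_cancel₀ hz
  have h1 := congrArg (Polynomial.aeval (z - 1)) (h13_binomSum_mul_X k)
  simp only [map_mul, aeval_X, map_sub, map_pow, map_add, map_one, sub_add_cancel] at h1
  rw [h1, geom_sum_mul]

/-- Values of the family `V` at `λ = ζ - 1`: `V 0 (λ) = ζ`, `V (k+1) (λ) = 1 + ζ + … + ζ^(k+1)`. -/
theorem h13_aeval_family (p : ℕ) [hp : Fact p.Prime] (K : Type) [Field K]
    [NumberField K] [IsCyclotomicExtension {p} ℚ K] {ζ : K} (hζ : IsPrimitiveRoot ζ p)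
    (V : ℕ → ℤ[X]) (hV0 : V 0 = X + 1)
    (hV : ∀ k, V (k + 1) = ∑ i ∈ Finset.range (k + 2), C ((k + 2).choose (i + 1) : ℤ) * X ^ i) :
    Polynomial.aeval (hζ.toInteger - 1) (V 0) = hζ.toInteger ∧
    ∀ k, Polynomial.aeval (hζ.toInteger - 1) (V (k + 1)) =
      ∑ i ∈ Finset.range (k + 2), hζ.toInteger ^ i := by
  refine ⟨by rw [hV0]; simp, fun k => ?_⟩
  rw [hV, h13_aeval_binomSum _ (hζ.toInteger_isPrimitiveRoot.sub_one_ne_zero hp.out.one_lt)]

/-- The unit family, for an arbitrary family `V` of polynomials of the prescribed shape. -/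
theorem exists_unit_family_of (p : ℕ) [hp : Fact p.Prime] (K : Type) [Field K]
    [NumberField K] [IsCyclotomicExtension {p} ℚ K] {ζ : K} (hζ : IsPrimitiveRoot ζ p)
    (V : ℕ → ℤ[X]) (hV0 : V 0 = X + 1)
    (hV : ∀ k, V (k + 1) = ∑ i ∈ Finset.range (k + 2), C ((k + 2).choose (i + 1) : ℤ) * X ^ i) :
    ∃ u : Fin ((p - 1) / 2) → (𝓞 K)ˣ,
      ∀ k, ((u k : (𝓞 K)ˣ) : 𝓞 K) = Polynomial.aeval (hζ.toInteger - 1) (V k) := by
  have hprim := hζ.toInteger_isPrimitiveRoot
  have hp1 : 1 < p := hp.out.one_lt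
  obtain ⟨h0, hs⟩ := h13_aeval_family p K hζ V hV0 hV
  have hunit : ∀ k : Fin ((p - 1) / 2),
      IsUnit (Polynomial.aeval (hζ.toInteger - 1) (V k)) := by
    rintro ⟨k, hk⟩
    rcases k with _ | k
    · rw [h0]
      exact hprim.isUnit (NeZero.ne p)
    · rw [hs]
      refine hprim.geom_sum_isUnit hp.out.two_le ?_
      rw [Nat.coprime_comm, Nat.Prime.coprime_iff_not_dvd hp.out]
      intro hdvd
      have := Nat.le_of_dvd (by omega) hdvd
      omega
  exact ⟨fun k => (hunit k).unit, fun k => rfl⟩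

/-- The unit family for helper7's polynomials `klV` (exact interface statement). -/
theorem exists_unit_family (p : ℕ) [hp : Fact p.Prime] (_hp2 : p ≠ 2) (K : Type) [Field K]
    [NumberField K] [IsCyclotomicExtension {p} ℚ K] {ζ : K} (hζ : IsPrimitiveRoot ζ p) :
    ∃ u : Fin ((p - 1) / 2) → (𝓞 K)ˣ,
      ∀ k, ((u k : (𝓞 K)ˣ) : 𝓞 K) =
        Polynomial.aeval (hζ.toInteger - 1) (Fermat.Agent.H7KL.klV k) :=
  exists_unit_family_of p K hζ Fermat.Agent.H7KL.klV rfl (fun _ => rfl)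

end Fermat.Agent.H13KL
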