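import Mathlib

/-!
# T-Kum K2, general part: Kummer's lemma from the independence of explicit units modulo `p`

Let `K` be the `p`-th cyclotomic field, `p` an odd prime, `E = (𝓞 K)ˣ`.  By Dirichlet's unit
theorem `E ⧸ E ^ p` has at most `p ^ ((p - 1) / 2)` elements.  If `(p - 1) / 2` units `u k` are
given such that no nontrivial product `∏ u k ^ e k` (`0 ≤ e k < p`) is congruent to a rational
integer modulo `p`, then these products represent all classes of `E ⧸ E ^ p`, and Kummer's lemma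
follows: a unit congruent to a rational integer modulo `p` is a `p`-th power.

Main result: `Fermat.Agent.H1KL.kummerLemma_of_indep`.
-/

set_option autoImplicit false

open NumberField NumberField.Units

namespace Fermat.Agent.H1KL

section PowCongr

variable (p : ℕ) [hp : Fact p.Prime] (K : Type) [Field K] [NumberField K]
  [IsCyclotomicExtension {p} ℚ K]

/-- `p`-th powers in `𝓞 K` are congruent to rational integers modulo `p`. -/
theorem h1kl_pow_congr_int (x : 𝓞 K) : ∃ n : ℤ, (p : 𝓞 K) ∣ x ^ p - (n : 𝓞 K) := by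
  have hζ := IsCyclotomicExtension.zeta_spec p ℚ K
  have htop := IsCyclotomicExtension.Rat.adjoin_singleton_eq_top hζ
  have hx : x ∈ Algebra.adjoin ℤ {hζ.toInteger} := by rw [htop]; exact Algebra.mem_top
  induction hx using Algebra.adjoin_induction with
  | mem y hy =>
    rw [Set.mem_singleton_iff] at hy
    subst hy
    refine ⟨1, ?_⟩
    have h1 : hζ.toInteger ^ p = 1 := hζ.toInteger_isPrimitiveRoot.pow_eq_one
    rw [h1]
    simp
  | algebraMap r =>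
    refine ⟨r ^ p, ?_⟩
    simp
  | add y z _ _ hy hz =>
    obtain ⟨a, ha⟩ := hy
    obtain ⟨b, hb⟩ := hz
    obtain ⟨r, hr⟩ := exists_add_pow_prime_eq hp.out y z
    refine ⟨a + b, ?_⟩
    have : (y + z) ^ p - ((a + b : ℤ) : 𝓞 K) =
        (y ^ p - (a : 𝓞 K)) + (z ^ p - (b : 𝓞 K)) + (p : 𝓞 K) * (y * z * r) := by
      rw [hr]; push_cast; ring
    rw [this]
    exact dvd_add (dvd_add ha hb) (dvd_mul_right _ _)
  | mul y z _ _ hy hz =>
    obtain ⟨a, ha⟩ := hy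
    obtain ⟨b, hb⟩ := hz
    refine ⟨a * b, ?_⟩
    have : (y * z) ^ p - ((a * b : ℤ) : 𝓞 K) =
        (y ^ p - (a : 𝓞 K)) * z ^ p + (a : 𝓞 K) * (z ^ p - (b : 𝓞 K)) := by
      push_cast; ring
    rw [this]
    exact dvd_add (Dvd.dvd.mul_right ha _) (Dvd.dvd.mul_left hb _)

/-- The rank of the unit group of the `p`-th cyclotomic field. -/
theorem h1kl_rank_add_one (hp2 : p ≠ 2) : rank K + 1 = (p - 1) / 2 := by
  have h2 : 2 < p := lt_of_le_of_ne hp.out.two_le (Ne.symm hp2)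
  have h1 : Fintype.card (InfinitePlace K) = (p - 1) / 2 := by
    rw [InfinitePlace.card_eq_nrRealPlaces_add_nrComplexPlaces,
      IsCyclotomicExtension.Rat.nrRealPlaces_eq_zero K h2,
      IsCyclotomicExtension.Rat.nrComplexPlaces_eq_totient_div_two p K,
      Nat.totient_prime hp.out, zero_add]
  have h3 : 1 ≤ (p - 1) / 2 := by omega
  rw [rank, h1]
  omega

end PowCongr


section Count

variable (p : ℕ) [hp : Fact p.Prime] (K : Type) [Field K] [NumberField K]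

/-- Two units are congruent modulo `p`-th powers. -/
def h1kl_R (x y : (𝓞 K)ˣ) : Prop := ∃ β : (𝓞 K)ˣ, x = y * β ^ p

variable {p K}

omit hp in
theorem h1kl_R.symm {x y : (𝓞 K)ˣ} (h : h1kl_R p K x y) : h1kl_R p K y x := by
  obtain ⟨β, rfl⟩ := h
  exact ⟨β⁻¹, by rw [inv_pow, mul_inv_cancel_right]⟩

omit hp in
theorem h1kl_R.trans {x y z : (𝓞 K)ˣ} (h : h1kl_R p K x y) (h' : h1kl_R p K y z) :
    h1kl_R p K x z := by
  obtain ⟨β, rfl⟩ := h
  obtain ⟨γ, rfl⟩ := h'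
  exact ⟨γ * β, by rw [mul_pow, mul_assoc]⟩

variable (p K)

theorem h1kl_toNat_lt (m : ℤ) : (m % (p : ℤ)).toNat < p := by
  have hp0 : (0 : ℤ) < p := by exact_mod_cast hp.out.pos
  have h1 : (0 : ℤ) ≤ m % (p : ℤ) := Int.emod_nonneg _ hp0.ne'
  have h2 : m % (p : ℤ) < p := Int.emod_lt_of_pos _ hp0
  omega

theorem h1kl_zpow_split (x : (𝓞 K)ˣ) (m : ℤ) :
    x ^ m = x ^ (m % (p : ℤ)).toNat * (x ^ (m / (p : ℤ))) ^ p := by
  have hp0 : (0 : ℤ) < p := by exact_mod_cast hp.out.pos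
  have h1 : (0 : ℤ) ≤ m % (p : ℤ) := Int.emod_nonneg _ hp0.ne'
  have h2 : m = ((m % (p : ℤ)).toNat : ℤ) + (m / (p : ℤ)) * (p : ℤ) := by
    rw [Int.toNat_of_nonneg h1]
    rw [mul_comm]
    exact (Int.emod_add_mul_ediv m p).symm
  conv_lhs => rw [h2]
  rw [zpow_add, zpow_natCast, zpow_mul, zpow_natCast]

/-- Dirichlet's unit theorem: every unit is congruent modulo `p`-th powers to one of
`p ^ (rank + 1)` explicit units. -/
theorem h1kl_exists_coords : ∃ w : Fin p × (Fin (rank K) → Fin p) → (𝓞 K)ˣ,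
    ∀ x : (𝓞 K)ˣ, ∃ d, h1kl_R p K x (w d) := by
  obtain ⟨τ, hτ⟩ := IsCyclic.exists_generator (α := torsion K)
  refine ⟨fun d => (τ : (𝓞 K)ˣ) ^ (d.1 : ℕ) * ∏ i, fundSystem K i ^ (d.2 i : ℕ), fun x => ?_⟩
  obtain ⟨⟨t, b⟩, hx, -⟩ := exist_unique_eq_mul_prod K x
  obtain ⟨m, hm⟩ := Subgroup.mem_zpowers_iff.mp (hτ t)
  refine ⟨(⟨(m % (p : ℤ)).toNat, h1kl_toNat_lt p m⟩,
    fun i => ⟨(b i % (p : ℤ)).toNat, h1kl_toNat_lt p (b i)⟩),
    (τ : (𝓞 K)ˣ) ^ (m / (p : ℤ)) * ∏ i, fundSystem K i ^ (b i / (p : ℤ)), ?_⟩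
  have hx' : x = (τ : (𝓞 K)ˣ) ^ m * ∏ i, fundSystem K i ^ b i := by
    rw [hx]
    congr 1
    rw [← hm]
    simp
  have hprod : ∏ i, fundSystem K i ^ b i =
      (∏ i, fundSystem K i ^ (b i % (p : ℤ)).toNat) *
        (∏ i, fundSystem K i ^ (b i / (p : ℤ))) ^ p := by
    rw [← Finset.prod_pow, ← Finset.prod_mul_distrib]
    exact Finset.prod_congr rfl fun i _ => h1kl_zpow_split p K _ _
  rw [hx', hprod, h1kl_zpow_split p K (τ : (𝓞 K)ˣ) m, mul_pow]
  simp only [mul_assoc, mul_left_comm, mul_comm]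

end Count

section Main

variable (p : ℕ) [hp : Fact p.Prime] (K : Type) [Field K] [NumberField K]
  [IsCyclotomicExtension {p} ℚ K]

/-- The product `∏ u k ^ e k` as a unit. -/
noncomputable def h1kl_prod {n : ℕ} (u : Fin n → (𝓞 K)ˣ) (e : Fin n → ℕ) : (𝓞 K)ˣ :=
  ∏ k, u k ^ e k

omit [NumberField K] [IsCyclotomicExtension {p} ℚ K] in
theorem h1kl_prod_coe {n : ℕ} (u : Fin n → (𝓞 K)ˣ) (e : Fin n → ℕ) :
    ((h1kl_prod K u e : (𝓞 K)ˣ) : 𝓞 K) = ∏ k, (u k : 𝓞 K) ^ e k := by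
  simp [h1kl_prod, Units.coe_prod]

/-- A unit which is a `p`-th power times something congruent to an integer is congruent to an
integer. -/
theorem h1kl_congr_int_of_R {x y : (𝓞 K)ˣ} (h : h1kl_R p K x y)
    (hy : ∃ n : ℤ, (p : 𝓞 K) ∣ (y : 𝓞 K) - (n : 𝓞 K)) :
    ∃ n : ℤ, (p : 𝓞 K) ∣ (x : 𝓞 K) - (n : 𝓞 K) := by
  obtain ⟨β, rfl⟩ := h
  obtain ⟨a, ha⟩ := hy
  obtain ⟨b, hb⟩ := h1kl_pow_congr_int p K (β : 𝓞 K)
  refine ⟨a * b, ?_⟩
  have : ((y * β ^ p : (𝓞 K)ˣ) : 𝓞 K) - ((a * b : ℤ) : 𝓞 K) =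
      ((y : 𝓞 K) - (a : 𝓞 K)) * (β : 𝓞 K) ^ p + (a : 𝓞 K) * ((β : 𝓞 K) ^ p - (b : 𝓞 K)) := by
    push_cast; ring
  rw [this]
  exact dvd_add (Dvd.dvd.mul_right ha _) (Dvd.dvd.mul_left hb _)

variable {p K}

/-- Independence gives injectivity of `e ↦ ∏ u k ^ e k` modulo `p`-th powers. -/
theorem h1kl_injective {n : ℕ} (u : Fin n → (𝓞 K)ˣ)
    (hind : ∀ e : Fin n → ℕ, (∀ k, e k < p) →
      (∃ m : ℤ, (p : 𝓞 K) ∣ (∏ k, (u k : 𝓞 K) ^ e k) - (m : 𝓞 K)) → ∀ k, e k = 0)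
    (e e' : Fin n → Fin p)
    (h : h1kl_R p K (h1kl_prod K u fun k => (e k : ℕ)) (h1kl_prod K u fun k => (e' k : ℕ))) :
    e = e' := by
  have hp0 : 0 < p := hp.out.pos
  -- the difference vector
  let d : Fin n → ℕ := fun k => ((e k : ℕ) + (p - (e' k : ℕ))) % p
  let c : Fin n → ℕ := fun k => ((e k : ℕ) + (p - (e' k : ℕ))) / p
  have hdc : ∀ k, (e k : ℕ) + (p - (e' k : ℕ)) = d k + p * c k := fun k =>
    (Nat.mod_add_div _ _).symm
  have hd : ∀ k, d k < p := fun k => Nat.mod_lt _ hp0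
  -- `∏ u ^ d` is a `p`-th power
  have hR : h1kl_R p K (h1kl_prod K u d) 1 := by
    obtain ⟨β, hβ⟩ := h
    refine ⟨β * (∏ k, u k) * (∏ k, u k ^ c k)⁻¹, ?_⟩
    have h1 : h1kl_prod K u d * (∏ k, u k ^ c k) ^ p * h1kl_prod K u (fun k => (e' k : ℕ)) =
        h1kl_prod K u (fun k => (e k : ℕ)) * (∏ k, u k) ^ p := by
      simp only [h1kl_prod]
      rw [← Finset.prod_pow, ← Finset.prod_pow, ← Finset.prod_mul_distrib,
        ← Finset.prod_mul_distrib, ← Finset.prod_mul_distrib]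
      refine Finset.prod_congr rfl fun k _ => ?_
      have h2 : (e' k : ℕ) ≤ p := (e' k).2.le
      have h3 : d k + p * c k + (e' k : ℕ) = (e k : ℕ) + p := by
        have := hdc k
        omega
      rw [← pow_mul, ← pow_add, ← pow_add, ← pow_add, Nat.mul_comm (c k) p, h3]
    rw [hβ] at h1
    rw [one_mul, mul_pow, mul_pow, inv_pow]
    have h4 : h1kl_prod K u d * (∏ k, u k ^ c k) ^ p =
        β ^ p * (∏ k, u k) ^ p := by
      apply mul_right_cancel (b := h1kl_prod K u (fun k => (e' k : ℕ)))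
      rw [h1]
      simp only [mul_assoc, mul_left_comm, mul_comm]
    rw [← h4, mul_inv_cancel_right]
  have hint : ∃ m : ℤ, (p : 𝓞 K) ∣ (∏ k, (u k : 𝓞 K) ^ d k) - (m : 𝓞 K) := by
    rw [← h1kl_prod_coe]
    exact h1kl_congr_int_of_R p K hR ⟨1, by simp⟩
  have hzero := hind d hd hint
  funext k
  apply Fin.ext
  have h1 := hzero k
  have h2 : (e k : ℕ) < p := (e k).2
  have h3 : (e' k : ℕ) < p := (e' k).2
  have h4 : ((e k : ℕ) + (p - (e' k : ℕ))) % p = 0 := h1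
  obtain ⟨t, ht⟩ := Nat.dvd_of_mod_eq_zero h4
  have h5 : t = 1 := by
    have h6 : 0 < (e k : ℕ) + (p - (e' k : ℕ)) := by omega
    have h7 : (e k : ℕ) + (p - (e' k : ℕ)) < 2 * p := by omega
    rw [ht] at h6 h7
    have h8 : 0 < t := by
      rcases Nat.eq_zero_or_pos t with h | h
      · rw [h] at h6; simp at h6
      · exact h
    have h9 : t < 2 := by
      by_contra hcon
      have : 2 ≤ t := by omega
      have := Nat.mul_le_mul_left p this
      omega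
    omega
  rw [h5, mul_one] at ht
  omega

variable (p K)

/-- **Kummer's lemma from independence of units modulo `p`** (counting argument). -/
theorem h1kl_kummerLemma_of_indep (hp2 : p ≠ 2)
    (u : Fin ((p - 1) / 2) → (𝓞 K)ˣ)
    (hind : ∀ e : Fin ((p - 1) / 2) → ℕ, (∀ k, e k < p) →
      (∃ n : ℤ, (p : 𝓞 K) ∣ (∏ k, (u k : 𝓞 K) ^ e k) - (n : 𝓞 K)) → ∀ k, e k = 0) :
    ∀ η : (𝓞 K)ˣ, (∃ n : ℤ, (p : 𝓞 K) ∣ (η : 𝓞 K) - (n : 𝓞 K)) → ∃ v : (𝓞 K)ˣ, η = v ^ p := by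
  classical
  intro η hη
  obtain ⟨w, hw⟩ := h1kl_exists_coords p K
  -- coordinates of the products `∏ u ^ e`
  choose d hd using fun e : Fin ((p - 1) / 2) → Fin p =>
    hw (h1kl_prod K u fun k => (e k : ℕ))
  have hinj : Function.Injective d := by
    intro e e' hee
    apply h1kl_injective u hind e e'
    have h1 := hd e
    have h2 := hd e'
    rw [hee] at h1
    exact h1.trans h2.symm
  have hcard : Fintype.card (Fin ((p - 1) / 2) → Fin p) =
      Fintype.card (Fin p × (Fin (rank K) → Fin p)) := by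
    rw [Fintype.card_prod, Fintype.card_fun, Fintype.card_fun, Fintype.card_fin,
      Fintype.card_fin, Fintype.card_fin, ← h1kl_rank_add_one p K hp2, pow_succ, mul_comm]
  have hbij : Function.Bijective d :=
    (Fintype.bijective_iff_injective_and_card d).mpr ⟨hinj, hcard⟩
  obtain ⟨dη, hdη⟩ := hw η
  obtain ⟨e, he⟩ := hbij.2 dη
  have hR : h1kl_R p K (h1kl_prod K u fun k => (e k : ℕ)) η := by
    have h1 := hd e
    rw [he] at h1
    exact h1.trans hdη.symm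
  have hint : ∃ n : ℤ, (p : 𝓞 K) ∣ (∏ k, (u k : 𝓞 K) ^ (e k : ℕ)) - (n : 𝓞 K) := by
    rw [← h1kl_prod_coe]
    exact h1kl_congr_int_of_R p K hR hη
  have hzero := hind (fun k => (e k : ℕ)) (fun k => (e k).2) hint
  have hone : h1kl_prod K u (fun k => (e k : ℕ)) = 1 := by
    simp only [h1kl_prod]
    refine Finset.prod_eq_one fun k _ => ?_
    rw [hzero k, pow_zero]
  rw [hone] at hR
  obtain ⟨β, hβ⟩ := hR.symm
  exact ⟨β, by rw [hβ, one_mul]⟩

end Main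

/-- **Kummer's lemma from independence of units modulo `p`** (counting argument), with the
binder order announced on the board. -/
theorem kummerLemma_of_indep (p : ℕ) [Fact p.Prime] (hp : p ≠ 2)
    (K : Type) [Field K] [NumberField K] [IsCyclotomicExtension {p} ℚ K]
    (u : Fin ((p - 1) / 2) → (𝓞 K)ˣ)
    (hind : ∀ e : Fin ((p - 1) / 2) → ℕ, (∀ k, e k < p) →
      (∃ n : ℤ, (p : 𝓞 K) ∣ (∏ k, (u k : 𝓞 K) ^ e k) - (n : 𝓞 K)) → ∀ k, e k = 0) :
    ∀ η : (𝓞 K)ˣ, (∃ n : ℤ, (p : 𝓞 K) ∣ (η : 𝓞 K) - (n : 𝓞 K)) → ∃ v : (𝓞 K)ˣ, η = v ^ p :=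
  h1kl_kummerLemma_of_indep p K hp u hind

end Fermat.Agent.H1KL
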