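import Mathlib

/-!
# T-Kum K2, piece D1 (helper1 for helper7): the logarithmic-derivative core of Kummer's lemma

If `∏ V k ^ e k ≡ n` modulo `(p, X ^ (p - 1))` and the constant terms of the `V k` are prime
to `p`, then the "logarithmic derivative numerator"
`∑ k, e k * (V k)' * ∏_{j ≠ k} V j` vanishes modulo `(p, X ^ (p - 2))`.
-/

set_option linter.style.longLine false
set_option linter.unusedVariables false

namespace Fermat.Agent.H7KL

open Polynomial

/-- The logarithmic derivative identity `P' * W = P * L` for `P = ∏ V k ^ e k`. -/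
theorem h1dl_dlog_identity {R : Type*} [CommRing R] (s : Finset ℕ) (V : ℕ → R[X]) (e : ℕ → ℕ) :
    derivative (∏ k ∈ s, V k ^ e k) * ∏ k ∈ s, V k
      = (∏ k ∈ s, V k ^ e k) *
        ∑ k ∈ s, C ((e k : ℤ) : R) * (derivative (V k) * ∏ j ∈ s.erase k, V j) := by
  classical
  rw [Polynomial.derivative_prod_finset, Finset.sum_mul, Finset.mul_sum]
  refine Finset.sum_congr rfl fun i hi => ?_
  rw [Polynomial.derivative_pow]
  rw [← Finset.mul_prod_erase s (fun k => V k ^ e k) hi]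
  rw [← Finset.mul_prod_erase s V hi]
  rcases Nat.eq_zero_or_pos (e i) with h0 | hpos
  · simp [h0]
  · have hpow : V i ^ (e i - 1) * V i = V i ^ e i := by
      rw [← pow_succ]; congr 1; omega
    have hc : (C ((e i : ℤ) : R) : R[X]) = C ((e i : ℕ) : R) := by simp
    rw [hc]
    calc (∏ j ∈ s.erase i, V j ^ e j) * (C ((e i : ℕ) : R) * V i ^ (e i - 1) * derivative (V i))
          * (V i * ∏ x ∈ s.erase i, V x)
        = (V i ^ (e i - 1) * V i) * (∏ j ∈ s.erase i, V j ^ e j) *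
            (C ((e i : ℕ) : R) * (derivative (V i) * ∏ x ∈ s.erase i, V x)) := by ring
      _ = _ := by rw [hpow]

theorem dlog_core (p : ℕ) [Fact p.Prime] (V : ℕ → ℤ[X]) (m : ℕ)
    (hV0 : ∀ k < m, ¬ (p : ℤ) ∣ (V k).coeff 0) (e : ℕ → ℕ) (n : ℤ)
    (h : ∀ i < p - 1, (p : ℤ) ∣ (∏ k ∈ Finset.range m, V k ^ e k - C n).coeff i) :
    ∀ i < p - 2, (p : ℤ) ∣ ∑ k ∈ Finset.range m,
      (e k : ℤ) * (derivative (V k) * ∏ j ∈ (Finset.range m).erase k, V j).coeff i := by
  classical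
  have hp : p.Prime := Fact.out
  have hpZ : Prime (p : ℤ) := Nat.prime_iff_prime_int.mp hp
  set P : ℤ[X] := ∏ k ∈ Finset.range m, V k ^ e k with hP
  set W : ℤ[X] := ∏ k ∈ Finset.range m, V k with hW
  set L : ℤ[X] := ∑ k ∈ Finset.range m,
    C ((e k : ℤ) : ℤ) * (derivative (V k) * ∏ j ∈ (Finset.range m).erase k, V j) with hL
  have hid : derivative P * W = P * L := h1dl_dlog_identity (Finset.range m) V e
  set φ : ℤ[X] →+* (ZMod p)[X] := Polynomial.mapRingHom (Int.castRingHom (ZMod p)) with hφ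
  have hφc : ∀ (Q : ℤ[X]) (i : ℕ), (φ Q).coeff i = ((Q.coeff i : ℤ) : ZMod p) := by
    intro Q i
    simp [hφ, Polynomial.coeff_map]
  -- (b) `X ^ (p - 2) ∣ φ P'`
  have hb : (X : (ZMod p)[X]) ^ (p - 2) ∣ φ (derivative P) := by
    rw [Polynomial.X_pow_dvd_iff]
    intro d hd
    rw [hφc, Polynomial.coeff_derivative]
    have h1 : (p : ℤ) ∣ P.coeff (d + 1) := by
      have := h (d + 1) (by omega)
      rw [Polynomial.coeff_sub, Polynomial.coeff_C_succ, sub_zero] at this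
      exact this
    have h2 : (p : ℤ) ∣ P.coeff (d + 1) * ((d : ℤ) + 1) := Dvd.dvd.mul_right h1 _
    exact (ZMod.intCast_zmod_eq_zero_iff_dvd _ p).mpr h2
  -- (c) `¬ X ∣ φ P`
  have hc : ¬ (X : (ZMod p)[X]) ∣ φ P := by
    rw [Polynomial.X_dvd_iff, hφc, ZMod.intCast_zmod_eq_zero_iff_dvd]
    have hP0 : P.coeff 0 = ∏ k ∈ Finset.range m, (V k).coeff 0 ^ e k := by
      simp only [hP, Polynomial.coeff_zero_eq_eval_zero, Polynomial.eval_prod, Polynomial.eval_pow]
    rw [hP0]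
    intro hdvd
    obtain ⟨k, hk, hk'⟩ := (Prime.dvd_finsetProd_iff hpZ _).mp hdvd
    exact hV0 k (Finset.mem_range.mp hk) (hpZ.dvd_of_dvd_pow hk')
  -- (d)
  have hd : (X : (ZMod p)[X]) ^ (p - 2) ∣ φ P * φ L := by
    rw [← map_mul, ← hid, map_mul]
    exact Dvd.dvd.mul_right hb _
  have hL' : (X : (ZMod p)[X]) ^ (p - 2) ∣ φ L :=
    Prime.pow_dvd_of_dvd_mul_left Polynomial.prime_X (p - 2) hc hd
  intro i hi
  have hLi : (φ L).coeff i = 0 := (Polynomial.X_pow_dvd_iff.mp hL') i hi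
  rw [hφc, ZMod.intCast_zmod_eq_zero_iff_dvd] at hLi
  have hLc : L.coeff i = ∑ k ∈ Finset.range m,
      (e k : ℤ) * (derivative (V k) * ∏ j ∈ (Finset.range m).erase k, V j).coeff i := by
    rw [hL, Polynomial.finsetSum_coeff]
    refine Finset.sum_congr rfl fun k _ => ?_
    rw [Polynomial.coeff_C_mul]
  rw [← hLc]
  exact hLi

end Fermat.Agent.H7KL
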