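import Mathlib

/-!
# T-Kum K2, piece D2 (helper4 for helper7): the linear algebra core of Kummer's lemma

If the matrix `s k (rows j)` has a left inverse `N` modulo `p`, then a vector `e` with
`∑ k, e k * s k (rows j) ≡ 0 mod p` for all `j` vanishes modulo `p`.
-/

namespace Fermat.Agent.H7KL

theorem linalg_core (p : ℕ) (m : ℕ) (s : ℕ → ℕ → ℤ) (rows : ℕ → ℕ) (N : ℕ → ℕ → ℤ)
    (hN : ∀ k < m, ∀ k' < m,
      (p : ℤ) ∣ (∑ j ∈ Finset.range m, N k j * s k' (rows j)) - (if k = k' then 1 else 0))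
    (e : ℕ → ℕ) (he : ∀ j < m, (p : ℤ) ∣ ∑ k ∈ Finset.range m, (e k : ℤ) * s k (rows j)) :
    ∀ k < m, (p : ℤ) ∣ (e k : ℤ) := by
  intro k hk
  -- `T = ∑ k', e k' * ∑ j, N k j * s k' (rows j)`
  have hT : (p : ℤ) ∣ ∑ k' ∈ Finset.range m,
      (e k' : ℤ) * ∑ j ∈ Finset.range m, N k j * s k' (rows j) := by
    have hswap : ∑ k' ∈ Finset.range m, (e k' : ℤ) * ∑ j ∈ Finset.range m, N k j * s k' (rows j)
        = ∑ j ∈ Finset.range m, N k j * ∑ k' ∈ Finset.range m, (e k' : ℤ) * s k' (rows j) := by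
      simp only [Finset.mul_sum]
      rw [Finset.sum_comm]
      refine Finset.sum_congr rfl fun j _ => Finset.sum_congr rfl fun k' _ => ?_
      ring
    rw [hswap]
    exact Finset.dvd_sum fun j hj => Dvd.dvd.mul_left (he j (Finset.mem_range.mp hj)) _
  have hD : (p : ℤ) ∣ ∑ k' ∈ Finset.range m,
      (e k' : ℤ) * ((∑ j ∈ Finset.range m, N k j * s k' (rows j)) - (if k = k' then 1 else 0)) :=
    Finset.dvd_sum fun k' hk' => Dvd.dvd.mul_left (hN k hk k' (Finset.mem_range.mp hk')) _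
  have hE : ∑ k' ∈ Finset.range m, (e k' : ℤ) * (if k = k' then (1 : ℤ) else 0) = (e k : ℤ) := by
    simp [Finset.sum_ite_eq, Finset.mem_range.mpr hk]
  have hsub : (e k : ℤ) = (∑ k' ∈ Finset.range m,
      (e k' : ℤ) * ∑ j ∈ Finset.range m, N k j * s k' (rows j)) -
      ∑ k' ∈ Finset.range m,
      (e k' : ℤ) * ((∑ j ∈ Finset.range m, N k j * s k' (rows j)) - (if k = k' then 1 else 0)) := by
    rw [← Finset.sum_sub_distrib, ← hE]
    refine Finset.sum_congr rfl fun k' _ => ?_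
    ring
  rw [hsub]
  exact dvd_sub hT hD

end Fermat.Agent.H7KL
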