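import Mathlib
import Fermat.Agent.Kum.KLPoly

/-!
# T-Kum K2, piece L (helper13 for helper7): list polynomials

Integer polynomials as coefficient lists, with structurally recursive arithmetic that the kernel
can evaluate, and the bridge to `ℤ[X]`.  Definitions verbatim from helper7's plan.
-/

set_option autoImplicit false

open Polynomial

namespace Fermat.Agent.H7KL

noncomputable def lOfList : List ℤ → ℤ[X]
  | [] => 0
  | a :: l => C a + X * lOfList l

def ladd : List ℤ → List ℤ → List ℤ
  | [], b => b
  | a, [] => a
  | x :: a, y :: b => (x + y) :: ladd a b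

def lsmul (c : ℤ) : List ℤ → List ℤ
  | [] => []
  | x :: a => (c * x) :: lsmul c a

def lmul : List ℤ → List ℤ → List ℤ
  | [], _ => []
  | x :: a, b => ladd (lsmul x b) (0 :: lmul a b)

def lder : List ℤ → List ℤ
  | [] => []
  | _ :: l => ladd l (0 :: lder l)

def klList : ℕ → List ℤ
  | 0 => [1, 1]
  | (k + 1) => (List.range (k + 2)).map fun i => (((k + 2).choose (i + 1) : ℕ) : ℤ)

def klErase (k : ℕ) : ℕ → List ℤ
  | 0 => [1]
  | (m + 1) => if m = k then klErase k m else lmul (klErase k m) (klList m)

def klS (m k : ℕ) : List ℤ := lmul (lder (klList k)) (klErase k m)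

def sumTo (f : ℕ → ℤ) : ℕ → ℤ
  | 0 => 0
  | (m + 1) => sumTo f m + f m

def allTo (P : ℕ → Bool) : ℕ → Bool
  | 0 => true
  | (m + 1) => allTo P m && P m

theorem h13_lOfList_nil : lOfList [] = 0 := rfl

theorem h13_lOfList_cons (a : ℤ) (l : List ℤ) : lOfList (a :: l) = C a + X * lOfList l := rfl

theorem coeff_lOfList (l : List ℤ) (i : ℕ) : (lOfList l).coeff i = l.getD i 0 := by
  induction l generalizing i with
  | nil => simp [h13_lOfList_nil]
  | cons a l ih =>
    rw [h13_lOfList_cons]
    cases i with
    | zero => simp
    | succ j =>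
      rw [coeff_add, coeff_C_succ, zero_add, coeff_X_mul, ih]
      simp

theorem lOfList_ladd (a b : List ℤ) : lOfList (ladd a b) = lOfList a + lOfList b := by
  induction a generalizing b with
  | nil => simp [ladd, h13_lOfList_nil]
  | cons x a ih =>
    cases b with
    | nil => simp [ladd, h13_lOfList_nil]
    | cons y b =>
      simp only [ladd, h13_lOfList_cons, ih, map_add]
      ring

theorem lOfList_lsmul (c : ℤ) (a : List ℤ) : lOfList (lsmul c a) = C c * lOfList a := by
  induction a with
  | nil => simp [lsmul, h13_lOfList_nil]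
  | cons x a ih =>
    simp only [lsmul, h13_lOfList_cons, ih, map_mul]
    ring

theorem lOfList_lmul (a b : List ℤ) : lOfList (lmul a b) = lOfList a * lOfList b := by
  induction a with
  | nil => simp [lmul, h13_lOfList_nil]
  | cons x a ih =>
    simp only [lmul, lOfList_ladd, lOfList_lsmul, h13_lOfList_cons, ih, map_zero, zero_add]
    ring

theorem lOfList_lder (a : List ℤ) : lOfList (lder a) = derivative (lOfList a) := by
  induction a with
  | nil => simp [lder, h13_lOfList_nil]
  | cons x a ih =>
    simp only [lder, lOfList_ladd, h13_lOfList_cons, ih, map_zero, zero_add, derivative_add,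
      derivative_C, derivative_mul, derivative_X, one_mul]

/-- The list of the first `n` values of `f` is the polynomial `∑ i < n, f i X^i`. -/
theorem h13_lOfList_map_range (f : ℕ → ℤ) (n : ℕ) :
    lOfList ((List.range n).map f) = ∑ i ∈ Finset.range n, C (f i) * X ^ i := by
  induction n generalizing f with
  | zero => simp [h13_lOfList_nil]
  | succ n ih =>
    rw [List.range_succ_eq_map, List.map_cons, List.map_map, h13_lOfList_cons, ih,
      Finset.sum_range_succ', Finset.mul_sum]
    simp only [pow_zero, mul_one, Function.comp_apply]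
    rw [add_comm]
    congr 1
    refine Finset.sum_congr rfl fun i _ => ?_
    rw [pow_succ]
    ring

theorem lOfList_klList (k : ℕ) : lOfList (klList k) = klV k := by
  cases k with
  | zero =>
    simp only [klList, h13_lOfList_cons, h13_lOfList_nil, klV_zero, map_one]
    ring
  | succ k =>
    rw [klList, h13_lOfList_map_range, klV_succ]

theorem lOfList_klErase (k m : ℕ) :
    lOfList (klErase k m) = ∏ j ∈ (Finset.range m).erase k, klV j := by
  induction m with
  | zero =>
    simp [klErase, h13_lOfList_cons, h13_lOfList_nil]
  | succ m ih =>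
    rw [klErase]
    by_cases hmk : m = k
    · rw [if_pos hmk, ih]
      subst hmk
      rw [Finset.range_add_one, Finset.erase_insert Finset.notMem_range_self,
        Finset.erase_eq_of_notMem Finset.notMem_range_self]
    · rw [if_neg hmk, lOfList_lmul, ih, lOfList_klList, Finset.range_add_one,
        Finset.erase_insert_of_ne hmk, Finset.prod_insert, mul_comm]
      intro hmem
      exact Finset.notMem_range_self (Finset.mem_of_mem_erase hmem)

theorem coeff_klS (m k i : ℕ) :
    (derivative (klV k) * ∏ j ∈ (Finset.range m).erase k, klV j).coeff i = (klS m k).getD i 0 := by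
  rw [← coeff_lOfList, klS, lOfList_lmul, lOfList_lder, lOfList_klList, lOfList_klErase]

theorem sumTo_eq (f : ℕ → ℤ) (m : ℕ) : sumTo f m = ∑ j ∈ Finset.range m, f j := by
  induction m with
  | zero => simp [sumTo]
  | succ m ih => rw [sumTo, ih, Finset.sum_range_succ]

theorem allTo_iff (P : ℕ → Bool) (m : ℕ) : allTo P m = true ↔ ∀ j < m, P j = true := by
  induction m with
  | zero => simp [allTo]
  | succ m ih =>
    rw [allTo, Bool.and_eq_true, ih]
    constructor
    · rintro ⟨h1, h2⟩ j hj
      rcases Nat.lt_succ_iff_lt_or_eq.mp hj with h | h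
      · exact h1 j h
      · rw [h]; exact h2
    · intro h
      exact ⟨fun j hj => h j (Nat.lt_succ_of_lt hj), h m (Nat.lt_succ_self m)⟩

end Fermat.Agent.H7KL
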