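import Mathlib
import Fermat.Agent.Kum.Defs
import Fermat.Agent.Kum.KLPoly
import Fermat.Agent.Kum.KLCoeff
import Fermat.Agent.Kum.KLCount
import Fermat.Agent.Kum.KLList
import Fermat.Agent.Kum.KLDlog
import Fermat.Agent.Kum.KLLin

/-!
# T-Kum K2 (helper7): Kummer's lemma from a kernel-checked certificate

`certOK p m rows N` is a Boolean, evaluated by the kernel, which checks that the matrix of
coefficients (at the rows `rows`) of the logarithmic derivatives of the cyclotomic units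
`ζ, 1 + ζ, …, 1 + ζ + ⋯ + ζ ^ (m - 1)` (in the coordinate `ζ - 1`) has the left inverse `N`
modulo `p`.  `kummerLemma_of_cert` deduces Kummer's lemma for the `p`-th cyclotomic field.
-/

open Polynomial NumberField

namespace Fermat.Agent.H7KL

/-- The certificate check. -/
def certOK (p m : ℕ) (rows : List ℕ) (N : List (List ℤ)) : Bool :=
  allTo (fun j => decide (rows.getD j 0 < p - 2)) m &&
  allTo (fun k => allTo (fun k' =>
    decide ((sumTo (fun j => (N.getD k []).getD j 0 * (klS m k').getD (rows.getD j 0) 0) m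
      - (if k = k' then 1 else 0)) % (p : ℤ) = 0)) m) m

theorem certOK_spec {p m : ℕ} {rows : List ℕ} {N : List (List ℤ)}
    (h : certOK p m rows N = true) :
    (∀ j < m, rows.getD j 0 < p - 2) ∧
    (∀ k < m, ∀ k' < m, (p : ℤ) ∣
      (∑ j ∈ Finset.range m, (N.getD k []).getD j 0 * (klS m k').getD (rows.getD j 0) 0)
        - (if k = k' then 1 else 0)) := by
  rw [certOK, Bool.and_eq_true, allTo_iff, allTo_iff] at h
  obtain ⟨h1, h2⟩ := h
  refine ⟨fun j hj => of_decide_eq_true (h1 j hj), fun k hk k' hk' => ?_⟩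
  have h3 := h2 k hk
  rw [allTo_iff] at h3
  have h4 := of_decide_eq_true (h3 k' hk')
  rw [sumTo_eq] at h4
  exact Int.dvd_of_emod_eq_zero h4

theorem klV_coeff_zero_not_dvd (p : ℕ) [hp : Fact p.Prime] (k : ℕ) (hk : k < (p - 1) / 2) :
    ¬ (p : ℤ) ∣ (klV k).coeff 0 := by
  rw [klV_coeff_zero]
  have hp1 : 1 < p := hp.out.one_lt
  split_ifs with h0
  · intro h
    have := Int.natCast_dvd_natCast.mp (by simpa using h : ((p : ℕ) : ℤ) ∣ ((1 : ℕ) : ℤ))
    have := Nat.le_of_dvd one_pos this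
    omega
  · intro h
    have := Int.natCast_dvd_natCast.mp (by push_cast; exact h : ((p : ℕ) : ℤ) ∣ ((k + 1 : ℕ) : ℤ))
    have := Nat.le_of_dvd (by omega) this
    omega

/-- The independence hypothesis of `H1KL.kummerLemma_of_indep`, from a certificate. -/
theorem hind_of_cert (p : ℕ) [hp : Fact p.Prime] (K : Type) [Field K] [NumberField K]
    [IsCyclotomicExtension {p} ℚ K] {ζ : K} (hζ : IsPrimitiveRoot ζ p)
    (rows : List ℕ) (N : List (List ℤ)) (hc : certOK p ((p - 1) / 2) rows N = true)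
    (u : Fin ((p - 1) / 2) → (𝓞 K)ˣ)
    (hu : ∀ k, ((u k : (𝓞 K)ˣ) : 𝓞 K) = aeval (hζ.toInteger - 1) (klV k)) :
    ∀ e : Fin ((p - 1) / 2) → ℕ, (∀ k, e k < p) →
      (∃ n : ℤ, (p : 𝓞 K) ∣ (∏ k, (u k : 𝓞 K) ^ e k) - (n : 𝓞 K)) → ∀ k, e k = 0 := by
  intro e he ⟨n, hn⟩ k
  let e' : ℕ → ℕ := fun k => if h : k < (p - 1) / 2 then e ⟨k, h⟩ else 0
  have he'k : ∀ k : Fin ((p - 1) / 2), e' k = e k := by
    intro k
    simp [e', k.isLt]
  have hprod : (∏ k, (u k : 𝓞 K) ^ e k) - (n : 𝓞 K) =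
      aeval (hζ.toInteger - 1) (∏ k ∈ Finset.range ((p - 1) / 2), klV k ^ e' k - C n) := by
    rw [map_sub, map_prod, aeval_C, ← Fin.prod_univ_eq_prod_range
      (fun k => aeval (hζ.toInteger - 1) (klV k ^ e' k)) ((p - 1) / 2)]
    congr 1
    · refine Finset.prod_congr rfl fun k _ => ?_
      rw [map_pow, he'k, hu]
  rw [hprod] at hn
  have h1 := Fermat.Agent.H13KL.coeff_dvd_of_dvd_aeval p K hζ _ hn
  have h2 := dlog_core p klV ((p - 1) / 2) (fun k hk => klV_coeff_zero_not_dvd p k hk) e' n h1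
  obtain ⟨hrows, hN⟩ := certOK_spec hc
  have h3 := linalg_core p ((p - 1) / 2) (fun k i => (klS ((p - 1) / 2) k).getD i 0)
    (fun j => rows.getD j 0)
    (fun k j => (N.getD k []).getD j 0) hN e' (fun j hj => by
      have := h2 _ (hrows j hj)
      simpa only [coeff_klS] using this)
  have h4 := h3 k k.isLt
  rw [he'k] at h4
  have h5 := Int.natCast_dvd_natCast.mp h4
  exact Nat.eq_zero_of_dvd_of_lt h5 (he k)

/-- **Kummer's lemma from a certificate.** -/
theorem kummerLemma_of_cert (p : ℕ) [hp : Fact p.Prime] (hp2 : p ≠ 2) (K : Type) [Field K]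
    [NumberField K] [IsCyclotomicExtension {p} ℚ K]
    (rows : List ℕ) (N : List (List ℤ)) (hc : certOK p ((p - 1) / 2) rows N = true) :
    Fermat.Agent.H4Kum.KummerLemma p K := by
  have : NeZero p := ⟨hp.out.ne_zero⟩
  have hζ := IsCyclotomicExtension.zeta_spec p ℚ K
  obtain ⟨u, hu⟩ := Fermat.Agent.H13KL.exists_unit_family_of p K hζ klV klV_zero
    (fun k => klV_succ k)
  exact Fermat.Agent.H1KL.kummerLemma_of_indep p hp2 K u
    (hind_of_cert p K hζ rows N hc u hu)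

end Fermat.Agent.H7KL

namespace Fermat.Agent.H7KL

/-- Kummer's lemma for `p = 5`. -/
theorem kummerLemma_five (K : Type) [Field K] [NumberField K] [IsCyclotomicExtension {5} ℚ K] :
    Fermat.Agent.H4Kum.KummerLemma 5 K :=
  @kummerLemma_of_cert 5 ⟨by norm_num⟩ (by decide) K _ _ _ [0, 1] [[1, 4], [4, 2]] (by decide +kernel)

/-- Kummer's lemma for `p = 7`. -/
theorem kummerLemma_seven (K : Type) [Field K] [NumberField K] [IsCyclotomicExtension {7} ℚ K] :
    Fermat.Agent.H4Kum.KummerLemma 7 K :=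
  @kummerLemma_of_cert 7 ⟨by norm_num⟩ (by decide) K _ _ _ [0, 1, 3] [[5, 0, 6], [4, 5, 1], [6, 1, 4]]
    (by decide +kernel)

/-- Kummer's lemma for `p = 11`. -/
theorem kummerLemma_eleven (K : Type) [Field K] [NumberField K]
    [IsCyclotomicExtension {11} ℚ K] : Fermat.Agent.H4Kum.KummerLemma 11 K :=
  @kummerLemma_of_cert 11 ⟨by norm_num⟩ (by decide) K _ _ _ [0, 1, 3, 5, 7]
    [[0, 5, 10, 6, 2], [8, 3, 9, 0, 10], [1, 10, 5, 2, 6], [7, 8, 3, 10, 7], [0, 5, 10, 5, 2]]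
    (by decide +kernel)

/-- Kummer's lemma for `p = 13`. -/
theorem kummerLemma_thirteen (K : Type) [Field K] [NumberField K]
    [IsCyclotomicExtension {13} ℚ K] : Fermat.Agent.H4Kum.KummerLemma 13 K :=
  @kummerLemma_of_cert 13 ⟨by norm_num⟩ (by decide) K _ _ _ [0, 1, 3, 5, 7, 9]
    [[10, 6, 10, 11, 8, 6], [12, 1, 5, 9, 3, 9], [12, 10, 5, 5, 7, 4], [10, 5, 6, 12, 7, 10],
      [11, 3, 2, 5, 0, 1], [11, 1, 6, 4, 10, 3]]
    (by decide +kernel)

end Fermat.Agent.H7KL
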