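import Mathlib
import Fermat.Agent.Kum.Defs

/-!
# Kummer's lemma from a "logarithmic derivative" (helper8)

Group-theoretic half of the computational proof of Kummer's lemma for a prime `p`
and the `p`-th cyclotomic field `K`:

* `h8_pow_of_dlog_eq_one`: if a commutative group `E` is generated by a family `g : ι → E`,
  `D : E →* Multiplicative V` is a homomorphism to an `𝔽_p`-vector space and there are
  `card ι` elements of `E` whose images under `D` are linearly independent, then every element
  of the kernel of `D` is a `p`-th power.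
* `h8_units_generators`: by Dirichlet's unit theorem the units of `𝓞 K` are generated by
  `(p - 1) / 2` elements.
* `h8_kummerLemma_of_dlog`: Kummer's lemma follows from the existence of such a `D` killing the
  units congruent to a rational integer modulo `p`.
-/

open NumberField NumberField.Units

namespace Fermat.Agent.H8Kum

section abstract

variable {E : Type*} [CommGroup E] {p : ℕ} [Fact p.Prime]
  {V : Type*} [AddCommGroup V] [Module (ZMod p) V]
  {ι κ : Type*} [Fintype ι] [Fintype κ]

/-- The value of `D` on a product of powers of the generators, as a linear combination. -/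
theorem h8_toAdd_D_prod (g : ι → E) (D : E →* Multiplicative V) (e : ι → ℤ) :
    Multiplicative.toAdd (D (∏ i, g i ^ e i)) =
      Fintype.linearCombination (ZMod p) (fun i => Multiplicative.toAdd (D (g i)))
        (fun i => (e i : ZMod p)) := by
  rw [map_prod, toAdd_prod, Fintype.linearCombination_apply]
  refine Finset.sum_congr rfl fun i _ => ?_
  rw [map_zpow, toAdd_zpow, Int.cast_smul_eq_zsmul]

/-- Abstract core: generators + independent values of a "dlog" force the kernel of the dlog
to consist of `p`-th powers. -/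
theorem h8_pow_of_dlog_eq_one (g : ι → E) (hg : ∀ u : E, ∃ e : ι → ℤ, u = ∏ i, g i ^ e i)
    (D : E →* Multiplicative V) (w : κ → E) (hcard : Fintype.card ι ≤ Fintype.card κ)
    (hw : LinearIndependent (ZMod p) (fun i => Multiplicative.toAdd (D (w i))))
    (u : E) (hu : D u = 1) : ∃ v : E, u = v ^ p := by
  classical
  set φ : (ι → ZMod p) →ₗ[ZMod p] V :=
    Fintype.linearCombination (ZMod p) (fun i => Multiplicative.toAdd (D (g i))) with hφ
  -- every value of `D` lies in the range of `φ`
  have hrange : ∀ x : E, Multiplicative.toAdd (D x) ∈ LinearMap.range φ := by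
    intro x
    obtain ⟨e, rfl⟩ := hg x
    exact ⟨fun i => (e i : ZMod p), (h8_toAdd_D_prod g D e).symm⟩
  -- the independent family lives in the range
  let w' : κ → LinearMap.range φ := fun i => ⟨Multiplicative.toAdd (D (w i)), hrange (w i)⟩
  have hw' : LinearIndependent (ZMod p) w' := by
    apply LinearIndependent.of_comp (LinearMap.range φ).subtype
    exact hw
  have h1 : Fintype.card κ ≤ Module.finrank (ZMod p) (LinearMap.range φ) :=
    hw'.fintype_card_le_finrank
  have h2 := LinearMap.finrank_range_add_finrank_ker φ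
  rw [Module.finrank_fintype_fun_eq_card] at h2
  have h3 : Module.finrank (ZMod p) (LinearMap.ker φ) = 0 := by omega
  have hker : LinearMap.ker φ = ⊥ := Submodule.finrank_eq_zero.mp h3
  have hinj : Function.Injective φ := LinearMap.ker_eq_bot.mp hker
  -- now use `D u = 1`
  obtain ⟨e, rfl⟩ := hg u
  have h4 : φ (fun i => (e i : ZMod p)) = 0 := by
    rw [hφ, ← h8_toAdd_D_prod g D e, hu]
    rfl
  have h5 : (fun i => (e i : ZMod p)) = 0 := hinj (by rw [h4, map_zero])
  have h6 : ∀ i, ∃ f : ℤ, e i = p * f := by
    intro i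
    have := congrFun h5 i
    simp only [Pi.zero_apply] at this
    exact (ZMod.intCast_zmod_eq_zero_iff_dvd (e i) p).mp this
  choose f hf using h6
  refine ⟨∏ i, g i ^ f i, ?_⟩
  rw [← Finset.prod_pow]
  refine Finset.prod_congr rfl fun i _ => ?_
  rw [hf i, mul_comm, zpow_mul, zpow_natCast]

end abstract

section dirichlet

variable (p : ℕ) [Fact p.Prime] (K : Type*) [Field K] [NumberField K]
  [IsCyclotomicExtension {p} ℚ K]

/-- The unit rank of the `p`-th cyclotomic field is `(p - 1) / 2 - 1`. -/
theorem h8_rank_add_one (hp2 : p ≠ 2) : rank K + 1 = (p - 1) / 2 := by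
  have hp : p.Prime := Fact.out
  have hp3 : 2 < p := lt_of_le_of_ne hp.two_le (Ne.symm hp2)
  have : NeZero p := ⟨hp.ne_zero⟩
  have h1 : InfinitePlace.nrRealPlaces K = 0 :=
    IsCyclotomicExtension.Rat.nrRealPlaces_eq_zero K hp3
  have h2 : InfinitePlace.nrComplexPlaces K = Nat.totient p / 2 :=
    IsCyclotomicExtension.Rat.nrComplexPlaces_eq_totient_div_two p K
  have h3 : Fintype.card (InfinitePlace K) = (p - 1) / 2 := by
    rw [InfinitePlace.card_eq_nrRealPlaces_add_nrComplexPlaces, h1, h2, zero_add,
      Nat.totient_prime hp]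
  rw [rank, h3]
  have : 1 ≤ (p - 1) / 2 := by omega
  omega

/-- Dirichlet: the units of the `p`-th cyclotomic field are generated by `rank K + 1` elements. -/
theorem h8_units_generators :
    ∃ g : Option (Fin (rank K)) → (𝓞 K)ˣ,
      ∀ u : (𝓞 K)ˣ, ∃ e : Option (Fin (rank K)) → ℤ, u = ∏ i, g i ^ e i := by
  obtain ⟨t, ht⟩ := (inferInstance : IsCyclic (torsion K)).exists_generator
  refine ⟨fun i => i.elim (t : (𝓞 K)ˣ) (fundSystem K), fun u => ?_⟩
  obtain ⟨⟨ζ, e⟩, hζe, -⟩ := exist_unique_eq_mul_prod K u
  obtain ⟨k, hk⟩ := Subgroup.mem_zpowers_iff.mp (ht ζ)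
  refine ⟨fun i => i.elim k e, ?_⟩
  rw [Fintype.prod_option]
  simp only [Option.elim_none, Option.elim_some]
  rw [hζe, ← hk]
  simp

end dirichlet

/-- **Kummer's lemma from a dlog.** Let `K` be the `p`-th cyclotomic field, `p` an odd prime.
If `D` is a homomorphism from the units of `𝓞 K` to an `𝔽_p`-vector space that kills the units
congruent to a rational integer modulo `p`, and if `(p - 1) / 2` units have linearly independent
images under `D`, then Kummer's lemma holds for `p`. -/
theorem h8_kummerLemma_of_dlog (p : ℕ) [Fact p.Prime] (hp2 : p ≠ 2)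
    (K : Type*) [Field K] [NumberField K] [IsCyclotomicExtension {p} ℚ K]
    {V : Type*} [AddCommGroup V] [Module (ZMod p) V]
    (D : (𝓞 K)ˣ →* Multiplicative V)
    (hD : ∀ u : (𝓞 K)ˣ, (∃ a : ℤ, (p : 𝓞 K) ∣ (u : 𝓞 K) - (a : 𝓞 K)) → D u = 1)
    (w : Fin ((p - 1) / 2) → (𝓞 K)ˣ)
    (hw : LinearIndependent (ZMod p) (fun i => Multiplicative.toAdd (D (w i)))) :
    Fermat.Agent.H4Kum.KummerLemma p K := by
  intro u hu
  obtain ⟨g, hg⟩ := h8_units_generators K
  have hcard : Fintype.card (Option (Fin (rank K))) ≤ Fintype.card (Fin ((p - 1) / 2)) := by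
    rw [Fintype.card_option, Fintype.card_fin, Fintype.card_fin, h8_rank_add_one p K hp2]
  exact h8_pow_of_dlog_eq_one g hg D w hcard hw u (hD u hu)

end Fermat.Agent.H8Kum
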